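import Fermat.Agent.BeukersSchlickewei.Heights
import Mathlib.Algebra.Polynomial.Lifts
import Mathlib.RingTheory.Polynomial.Basic
import Mathlib.Algebra.Polynomial.Roots
import Mathlib.Algebra.CharP.Lemmas
import Mathlib.NumberTheory.Fermat
import Mathlib.Tactic.NormNum.Prime

/-!
# Small points on lines in the torus

Three points of tiny height on a line `a x + b y = 1`: Frobenius and the product formula make the
vanishing of the determinant persist at the exponents `1, 31, …, 151`, so its six terms cancel in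
classes of equal `30`th powers. Hence a line holds at most `540` such points, whatever `a` and `b`.
-/

set_option autoImplicit false

noncomputable section

open Height NumberField Finset

namespace FA.BeukersSchlickewei

variable {K : Type*} [Field K] [NumberField K]

theorem finitePlace_natCast_le (v : FinitePlace K) (n : ℕ) : v (n : K) ≤ 1 := by
  simpa using finitePlace_intCast_le v n

/-- The binomial congruence at a finite place. -/
theorem finitePlace_frobenius (v : FinitePlace K) {p : ℕ} (hp : p.Prime) {ι : Type*}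
    (s : Finset ι) (a : ι → K) (ha : ∀ i ∈ s, v (a i) ≤ 1) :
    v ((∑ i ∈ s, a i) ^ p - ∑ i ∈ s, a i ^ p) ≤ v (p : K) := by
  classical
  induction s using Finset.induction with
  | empty => simp [hp.ne_zero]
  | insert i s hi ih =>
    rw [sum_insert hi, sum_insert hi]
    set b := ∑ j ∈ s, a j
    have hb : v b ≤ 1 := by
      rcases s.eq_empty_or_nonempty with hs | hs
      · simp [b, hs]
      · obtain ⟨j, hj, h⟩ := IsNonarchimedean.finset_image_add_of_nonempty (f := v.1)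
          (FinitePlace.add_le v) a hs
        exact h.trans (ha j (mem_insert_of_mem hj))
    rw [add_pow_prime_eq hp]
    set G := ∑ k ∈ Ioo 0 p, a i ^ (k - 1) * b ^ (p - k - 1) * ((p.choose k / p : ℕ) : K)
    rw [show a i ^ p + b ^ p + p * a i * b * G - (a i ^ p + ∑ j ∈ s, a j ^ p) =
        (p : K) * (a i * b * G) + (b ^ p - ∑ j ∈ s, a j ^ p) by ring]
    refine (FinitePlace.add_le v _ _).trans (max_le ?_ (ih fun j hj => ha j (mem_insert_of_mem hj)))
    rw [map_mul]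
    refine mul_le_of_le_one_right (apply_nonneg _ _) ?_
    rw [map_mul, map_mul]
    have hai : v (a i) ≤ 1 := ha i (mem_insert_self i s)
    refine mul_le_one₀ (mul_le_one₀ hai (apply_nonneg _ _) hb) (apply_nonneg _ _) ?_
    rcases (Ioo 0 p).eq_empty_or_nonempty with he | he
    · simp [G, he]
    · obtain ⟨k, -, h⟩ := IsNonarchimedean.finset_image_add_of_nonempty (f := v.1)
        (FinitePlace.add_le v)
        (fun k => a i ^ (k - 1) * b ^ (p - k - 1) * ((p.choose k / p : ℕ) : K)) he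
      refine h.trans ?_
      rw [map_mul, map_mul, map_pow, map_pow]
      exact mul_le_one₀ (mul_le_one₀ (pow_le_one₀ (apply_nonneg _ _) hai)
        (pow_nonneg (apply_nonneg _ _) _) (pow_le_one₀ (apply_nonneg _ _) hb))
        (apply_nonneg _ _) (finitePlace_natCast_le v _)

/-- **Frobenius step**: the vanishing persists from `n` to `n p`. -/
theorem sum_pow_eq_zero_step {c : Fin 6 → ℤ} (hc : ∀ i, c i = 1 ∨ c i = -1) {M : Fin 6 → K}
    (hM : ∀ i, M i ≠ 0) {p n : ℕ} (hp : p.Prime) (h7 : 7 ≤ p) (hn : n * p ≤ 151)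
    (hH : 151 * logHeight M < Module.finrank ℚ K * (1 / 7 : ℝ))
    (h0 : ∑ i, (c i : K) * M i ^ n = 0) : ∑ i, (c i : K) * M i ^ (n * p) = 0 := by
  by_contra hne
  have hodd : Odd p := hp.eq_two_or_odd'.resolve_left (by omega)
  set e := ∑ i, (c i : K) * M i ^ (n * p) with he
  set z : Fin 1 → K := fun _ => e
  have hz : z ≠ 0 := fun h => hne (congrFun h 0)
  have hY : (M ^ (n * p) : Fin 6 → K) ≠ 0 := fun h =>
    pow_ne_zero (n * p) (hM 0) (congrFun h 0)
  have key := logHeight_le_of_le hz hY (a := 6) (by norm_num) hp.ne_zero (fun v _ => ?_)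
    (fun v _ => ?_)
  · rw [logHeight_eq_zero_of_subsingleton, zero_add, logHeight_pow] at key
    have h1 : (1 / 7 : ℝ) ≤ Real.log p - Real.log 6 := by
      have h := Real.one_sub_inv_le_log_of_pos (show (0 : ℝ) < 7 / 6 by norm_num)
      rw [Real.log_div (by norm_num) (by norm_num)] at h
      have := Real.log_le_log (show (0 : ℝ) < 7 by norm_num)
        (show (7 : ℝ) ≤ p by exact_mod_cast h7)
      linarith
    have h2 : ((n * p : ℕ) : ℝ) * logHeight M ≤ 151 * logHeight M :=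
      mul_le_mul_of_nonneg_right (by exact_mod_cast hn) (logHeight_nonneg M)
    have h3 := mul_le_mul_of_nonneg_left h1 (Nat.cast_nonneg (α := ℝ) (Module.finrank ℚ K))
    rw [mul_sub] at h3
    linarith
  · simp only [z, he]
    have hterm : ∀ i, v ((c i : K) * M i ^ (n * p)) ≤ ⨆ j, v ((M ^ (n * p)) j) := fun i => by
      rw [map_mul, infinitePlace_intCast,
        show |((c i : ℤ) : ℝ)| = 1 by rcases hc i with h | h <;> simp [h], one_mul]
      exact Finite.le_ciSup (fun j => v ((M ^ (n * p)) j)) i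
    calc v (∑ i, (c i : K) * M i ^ (n * p)) ≤ ∑ i, v ((c i : K) * M i ^ (n * p)) := v.1.sum_le _ _
      _ ≤ ∑ _i : Fin 6, ⨆ j, v ((M ^ (n * p)) j) := sum_le_sum fun i _ => hterm i
      _ = 6 * ⨆ j, v ((M ^ (n * p)) j) := by simp
  · obtain ⟨i₀, hi₀⟩ := Finite.exists_max fun i => v (M i ^ n)
    set s := M i₀ ^ n
    have hs : s ≠ 0 := pow_ne_zero _ (hM i₀)
    have h := finitePlace_frobenius v hp univ (fun i => (c i : K) * M i ^ n / s) fun i _ => by
      rw [map_div₀, map_mul, div_le_one (show 0 < v s from v.1.pos hs)]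
      exact (mul_le_of_le_one_left (apply_nonneg _ _) (finitePlace_intCast_le v _)).trans (hi₀ i)
    rw [← sum_div, h0, zero_div, zero_pow hp.ne_zero, zero_sub, FinitePlace.coe_apply,
      AbsoluteValue.map_neg, ← FinitePlace.coe_apply] at h
    have hsum : ∑ i, ((c i : K) * M i ^ n / s) ^ p = e / s ^ p := by
      rw [he, sum_div]
      refine sum_congr rfl fun i _ => ?_
      rw [div_pow, mul_pow, ← pow_mul]
      rcases hc i with h | h <;> simp [h, hodd.neg_one_pow]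
    rw [hsum, map_div₀, div_le_iff₀ (show 0 < v (s ^ p) from v.1.pos (pow_ne_zero p hs))] at h
    refine h.trans (mul_le_mul_of_nonneg_left ?_ (apply_nonneg _ _))
    refine Finite.le_ciSup_of_le i₀ ?_
    simp [s, ← pow_mul]

/-- The six terms cancel in classes of equal `30`th powers. -/
theorem exists_pow_eq {c : Fin 6 → ℤ} (hc : ∀ i, c i = 1 ∨ c i = -1) {M : Fin 6 → K}
    (hM : ∀ i, M i ≠ 0) (hH : 151 * logHeight M < Module.finrank ℚ K * (1 / 7 : ℝ))
    (h0 : ∑ i, (c i : K) * M i = 0) (i₀ : Fin 6) : ∃ i, i ≠ i₀ ∧ M i ^ 30 = M i₀ ^ 30 := by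
  classical
  have step := fun {n p : ℕ} => sum_pow_eq_zero_step (p := p) (n := n) hc hM
  have h1 : ∑ i, (c i : K) * M i ^ 1 = 0 := by simpa using h0
  have h7 := step (p := 7) (by norm_num) le_rfl (by norm_num) hH h1
  have h11 := step (p := 11) (by norm_num) (by norm_num) (by norm_num) hH h1
  have hJ : ∀ j < 6, ∑ i, (c i : K) * M i * (M i ^ 30) ^ j = 0 := by
    intro j hj
    simp only [mul_assoc, ← pow_mul, ← pow_succ']
    interval_cases j
    · simpa using h0
    · exact step (p := 31) (by norm_num) (by norm_num) (by norm_num) hH h1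
    · exact step (p := 61) (by norm_num) (by norm_num) (by norm_num) hH h1
    · exact step (n := 1 * 7) (p := 13) (by norm_num) (by norm_num) (by norm_num) hH h7
    · exact step (n := 1 * 11) (p := 11) (by norm_num) (by norm_num) (by norm_num) hH h11
    · exact step (p := 151) (by norm_num) (by norm_num) (by norm_num) hH h1
  by_contra hcon
  push Not at hcon
  set Z := (univ.erase i₀).image fun i => M i ^ 30
  set L : Polynomial K := ∏ z ∈ Z, (Polynomial.X - Polynomial.C z)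
  have hdeg : L.natDegree < 6 := by
    rw [Polynomial.natDegree_prod_of_monic _ _ fun z _ => Polynomial.monic_X_sub_C z]
    simp only [Polynomial.natDegree_X_sub_C, sum_const, smul_eq_mul, mul_one]
    exact card_image_le.trans_lt (by simp)
  have hroot : ∀ i, i ≠ i₀ → L.eval (M i ^ 30) = 0 := fun i hi => by
    rw [Polynomial.eval_prod]
    exact prod_eq_zero (mem_image_of_mem _ (mem_erase.2 ⟨hi, mem_univ i⟩)) (by simp)
  have hne : L.eval (M i₀ ^ 30) ≠ 0 := by
    rw [Polynomial.eval_prod, prod_ne_zero_iff]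
    intro z hz
    obtain ⟨i, hi, rfl⟩ := mem_image.1 hz
    simpa [sub_eq_zero] using (hcon i (mem_erase.1 hi).1).symm
  have hsum : ∑ i, (c i : K) * M i * L.eval (M i ^ 30) = 0 := by
    simp only [Polynomial.eval_eq_sum_range' hdeg, mul_sum, mul_left_comm _ (L.coeff _)]
    rw [sum_comm]
    exact sum_eq_zero fun j hj => by rw [← mul_sum, hJ j (mem_range.1 hj), mul_zero]
  rw [sum_eq_single i₀ (fun i _ hi => by rw [hroot i hi, mul_zero]) (by simp)] at hsum
  have hc0 : (c i₀ : K) ≠ 0 := by rcases hc i₀ with h | h <;> simp [h]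
  exact hne ((mul_eq_zero.1 hsum).resolve_left (mul_ne_zero hc0 (hM i₀)))

theorem logHeight_six_le (x₁ x₂ x₃ y₁ y₂ y₃ : K) :
    logHeight ![x₁ * y₂, x₂ * y₃, x₃ * y₁, x₁ * y₃, x₃ * y₂, x₂ * y₁] ≤
      logHeight₁ x₁ + logHeight₁ x₂ + logHeight₁ x₃ +
        (logHeight₁ y₁ + logHeight₁ y₂ + logHeight₁ y₃) := by
  have htr : ∀ a b c : K, logHeight ![a, b, c] ≤ logHeight₁ a + logHeight₁ b + logHeight₁ c := by
    intro a b c
    rw [logHeight₁_eq_logHeight c]
    refine le_trans ?_ (add_le_add_left (logHeight_triple_le a b) _)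
    rw [← logHeight_fun_mul_eq (x := ![a, b, 1]) (y := ![c, 1]) (by simp) (by simp)]
    refine le_of_eq_of_le (congrArg logHeight ?_) (logHeight_comp_le
      ![((0 : Fin 3), (1 : Fin 2)), (1, 1), (2, 0)] _)
    funext i; fin_cases i <;> simp
  by_cases hx : (![x₁, x₂, x₃] : Fin 3 → K) = 0
  · simp only [funext_iff, Fin.forall_fin_succ, Pi.zero_apply, Matrix.cons_val_zero,
      Matrix.cons_val_succ, Matrix.cons_val_fin_one, Fin.succ_zero_eq_one, IsEmpty.forall_iff,
      and_true] at hx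
    obtain ⟨rfl, rfl, rfl⟩ := hx
    rw [show (![(0 : K) * y₂, 0 * y₃, 0 * y₁, 0 * y₃, 0 * y₂, 0 * y₁] : Fin 6 → K) = 0 by
      funext i; fin_cases i <;> simp, logHeight_zero]
    positivity
  by_cases hy : (![y₁, y₂, y₃] : Fin 3 → K) = 0
  · simp only [funext_iff, Fin.forall_fin_succ, Pi.zero_apply, Matrix.cons_val_zero,
      Matrix.cons_val_succ, Matrix.cons_val_fin_one, Fin.succ_zero_eq_one, IsEmpty.forall_iff,
      and_true] at hy
    obtain ⟨rfl, rfl, rfl⟩ := hy
    rw [show (![x₁ * (0 : K), x₂ * 0, x₃ * 0, x₁ * 0, x₃ * 0, x₂ * 0] : Fin 6 → K) = 0 by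
      funext i; fin_cases i <;> simp, logHeight_zero]
    positivity
  refine le_trans ?_ (add_le_add (htr x₁ x₂ x₃) (htr y₁ y₂ y₃))
  rw [← logHeight_fun_mul_eq hx hy]
  refine le_of_eq_of_le (congrArg logHeight ?_) (logHeight_comp_le
    ![((0 : Fin 3), (1 : Fin 3)), (1, 2), (2, 0), (0, 2), (2, 1), (1, 0)] _)
  funext i; fin_cases i <;> simp

omit [NumberField K] in
theorem card_fibre_le [DecidableEq K] {a b : K} (hb : b ≠ 0) (S : Finset (Kˣ × Kˣ))
    (hline : ∀ u ∈ S, a * u.1 + b * u.2 = 1) (t : K) :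
    (S.filter fun v : Kˣ × Kˣ => (v.1 : K) ^ 90 = t).card ≤ 90 := by
  classical
  refine le_trans ?_ ((Multiset.toFinset_card_le _).trans (Polynomial.card_nthRoots 90 t))
  refine card_le_card_of_injOn (fun v : Kˣ × Kˣ => (v.1 : K)) (fun v hv => ?_) fun v hv w hw h => ?_
  · simp only [mem_coe, Multiset.mem_toFinset]
    exact (Polynomial.mem_nthRoots (by norm_num)).2 (mem_filter.1 hv).2
  · have h1 := hline v (mem_filter.1 hv).1
    have h2 := hline w (mem_filter.1 hw).1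
    simp only at h
    rw [h] at h1
    exact Prod.ext (Units.ext h) (Units.ext (mul_left_cancel₀ hb (by linear_combination h1 - h2)))

omit [NumberField K] in
/-- The combinatorics of the six terms. -/
theorem six_classes {X₁ X₂ X₃ Y₁ Y₂ Y₃ : K} (hX₁ : X₁ ≠ 0) (hX₂ : X₂ ≠ 0) (hX₃ : X₃ ≠ 0)
    (hY₁ : Y₁ ≠ 0) (hY₂ : Y₂ ≠ 0) (hY₃ : Y₃ ≠ 0)
    (x21 : X₂ ≠ X₁) (x31 : X₃ ≠ X₁) (x32 : X₃ ≠ X₂) (y21 : Y₂ ≠ Y₁) (y31 : Y₃ ≠ Y₁)
    (y32 : Y₃ ≠ Y₂) (r12 : X₁ * Y₂ ≠ X₂ * Y₁) (r13 : X₁ * Y₃ ≠ X₃ * Y₁)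
    (r23 : X₂ * Y₃ ≠ X₃ * Y₂) (hcube : Y₃ ^ 3 ≠ Y₂ ^ 3)
    (key : ∀ i₀, ∃ i, i ≠ i₀ ∧
      (![X₁ * Y₂, X₂ * Y₃, X₃ * Y₁, X₁ * Y₃, X₃ * Y₂, X₂ * Y₁] : Fin 6 → K) i =
        ![X₁ * Y₂, X₂ * Y₃, X₃ * Y₁, X₁ * Y₃, X₃ * Y₂, X₂ * Y₁] i₀) : False := by
  have k0 := key 0
  have k1 := key 1
  have k2 := key 2
  have k3 := key 3
  have k4 := key 4
  have k5 := key 5
  simp [Fin.exists_fin_succ, hX₁, hX₂, hX₃, hY₁, hY₂, hY₃] at k0 k1 k2 k3 k4 k5
  have hA : X₁ * Y₂ = X₂ * Y₃ ∧ X₁ * Y₂ = X₃ * Y₁ := by grind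
  have hB : X₁ * Y₃ = X₃ * Y₂ ∧ X₁ * Y₃ = X₂ * Y₁ := by grind
  have e1 : Y₁ * Y₂ = Y₃ ^ 2 := by
    refine mul_left_cancel₀ (mul_ne_zero hX₁ hX₂) ?_
    linear_combination (X₂ * Y₁) * hA.1 - (X₂ * Y₃) * hB.2
  have e2 : Y₁ * Y₃ = Y₂ ^ 2 := by
    refine mul_left_cancel₀ (mul_ne_zero hX₁ hX₃) ?_
    linear_combination (X₃ * Y₁) * hB.1 - (X₃ * Y₂) * hA.2
  exact hcube (by linear_combination Y₂ * e2 - Y₃ * e1)

/-- **A line holds at most `540` points of height below `1 / 4000`.** -/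
theorem card_small_points_le {a b : K} (ha : a ≠ 0) (hb : b ≠ 0) (S : Finset (Kˣ × Kˣ))
    (hline : ∀ u ∈ S, a * u.1 + b * u.2 = 1) (hsmall : ∀ u ∈ S, pairHeight u ≤ 1 / 4000) :
    S.card ≤ 540 := by
  classical
  let near : Kˣ × Kˣ → Finset (Kˣ × Kˣ) := fun u =>
    (S.filter fun v => (v.1 : K) ^ 90 = (u.1 : K) ^ 90) ∪
      (S.filter fun v => (v.2 : K) ^ 90 = (u.2 : K) ^ 90) ∪
      (S.filter fun v => ((v.1 : K) / v.2) ^ 90 = ((u.1 : K) / u.2) ^ 90)
  have hnear : ∀ u, (near u).card ≤ 270 := by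
    intro u
    refine (card_union_le _ _).trans (le_of_le_of_eq (Nat.add_le_add ((card_union_le _ _).trans
      (Nat.add_le_add (card_fibre_le hb S hline _) ?_)) ?_) (show 90 + 90 + 90 = 270 by norm_num))
    · refine le_trans ?_ (card_fibre_le (a := b) ha (S.image Prod.swap) (fun w hw => by
        obtain ⟨v, hv, rfl⟩ := mem_image.1 hw
        simp only [Prod.fst_swap, Prod.snd_swap]
        linear_combination hline v hv) ((u.2 : K) ^ 90))
      refine card_le_card_of_injOn Prod.swap (fun v hv => ?_) Prod.swap_injective.injOn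
      exact mem_filter.2 ⟨mem_image_of_mem _ (mem_filter.1 hv).1, (mem_filter.1 hv).2⟩
    · refine le_trans ?_ ((Multiset.toFinset_card_le _).trans
        (Polynomial.card_nthRoots 90 (((u.1 : K) / u.2) ^ 90)))
      refine card_le_card_of_injOn (fun v => (v.1 : K) / v.2) (fun v hv => ?_)
        fun v hv w hw h => ?_
      · simp only [mem_coe, Multiset.mem_toFinset]
        exact (Polynomial.mem_nthRoots (by norm_num)).2 (mem_filter.1 hv).2
      · have h1 := hline v (mem_filter.1 hv).1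
        have h2 := hline w (mem_filter.1 hw).1
        rw [div_eq_div_iff (Units.ne_zero _) (Units.ne_zero _)] at h
        have e1 : (v.1 : K) = w.1 := by linear_combination b * h - (v.1 : K) * h2 + (w.1 : K) * h1
        have e2 : (v.2 : K) = w.2 := by linear_combination -a * h - (v.2 : K) * h2 + (w.2 : K) * h1
        exact Prod.ext (Units.ext e1) (Units.ext e2)
  by_contra hcard
  rw [not_le] at hcard
  obtain ⟨u, hu⟩ : S.Nonempty := card_pos.1 (by omega)
  obtain ⟨v, hv, hvu⟩ := exists_mem_notMem_of_card_lt_card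
    (show (near u).card < S.card by have := hnear u; omega)
  obtain ⟨w, hw, hwuv⟩ := exists_mem_notMem_of_card_lt_card
    (show (near u ∪ near v).card < S.card by
      have := hnear u; have := hnear v; have := card_union_le (near u) (near v); omega)
  simp only [near, mem_union, mem_filter, hv, hw, true_and, not_or] at hvu hwuv
  obtain ⟨⟨hvx, hvy⟩, hvr⟩ := hvu
  obtain ⟨⟨⟨hwx, hwy⟩, hwr⟩, ⟨hwx', hwy'⟩, hwr'⟩ := hwuv
  have h1 := hline u hu
  have h2 := hline v hv
  have h3 := hline w hw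
  have s1 := hsmall u hu
  have s2 := hsmall v hv
  have s3 := hsmall w hw
  have hd : (0 : ℝ) < Module.finrank ℚ K := mod_cast Module.finrank_pos
  rw [pairHeight, div_le_iff₀ hd] at s1 s2 s3
  set x₁ := (u.1 : K); set y₁ := (u.2 : K)
  set x₂ := (v.1 : K); set y₂ := (v.2 : K)
  set x₃ := (w.1 : K); set y₃ := (w.2 : K)
  have hx₁ : x₁ ≠ 0 := Units.ne_zero _
  have hy₁ : y₁ ≠ 0 := Units.ne_zero _
  have hx₂ : x₂ ≠ 0 := Units.ne_zero _
  have hy₂ : y₂ ≠ 0 := Units.ne_zero _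
  have hx₃ : x₃ ≠ 0 := Units.ne_zero _
  have hy₃ : y₃ ≠ 0 := Units.ne_zero _
  have hdet : x₁ * y₂ + x₂ * y₃ + x₃ * y₁ - x₁ * y₃ - x₃ * y₂ - x₂ * y₁ = 0 := by
    refine mul_left_cancel₀ ha ?_
    rw [mul_zero]
    linear_combination (y₂ - y₃) * h1 + (y₃ - y₁) * h2 + (y₁ - y₂) * h3
  set M : Fin 6 → K := ![x₁ * y₂, x₂ * y₃, x₃ * y₁, x₁ * y₃, x₃ * y₂, x₂ * y₁] with hMdef
  set c : Fin 6 → ℤ := ![1, 1, 1, -1, -1, -1] with hcdef
  have hc : ∀ i, c i = 1 ∨ c i = -1 := by decide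
  have hM : ∀ i, M i ≠ 0 := by intro i; fin_cases i <;> simp [M, *]
  have hH : 151 * logHeight M < Module.finrank ℚ K * (1 / 7 : ℝ) := by
    have := logHeight_six_le x₁ x₂ x₃ y₁ y₂ y₃
    linarith
  have h0 : ∑ i, (c i : K) * M i = 0 := by
    simp [Fin.sum_univ_six, hcdef, hMdef]
    linear_combination hdet
  have key := fun i₀ => exists_pow_eq hc hM hH h0 i₀
  -- partners of a term with the other sign are excluded
  have d90 : ∀ {s t : K}, s ^ 90 ≠ t ^ 90 → s ^ 30 ≠ t ^ 30 := fun h e =>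
    h (by rw [show (90 : ℕ) = 30 * 3 from rfl, pow_mul, pow_mul, e])
  have dr : ∀ {s t s' t' : K}, t ≠ 0 → t' ≠ 0 → (s' / t') ^ 90 ≠ (s / t) ^ 90 →
      (s * t') ^ 30 ≠ (s' * t) ^ 30 := fun {s t s' t'} h0 h0' h e => d90 h (by
    rw [div_pow, div_pow, div_eq_div_iff (pow_ne_zero _ h0') (pow_ne_zero _ h0), ← mul_pow,
      ← mul_pow]
    linear_combination -e)
  refine six_classes (pow_ne_zero 30 hx₁) (pow_ne_zero 30 hx₂) (pow_ne_zero 30 hx₃)
    (pow_ne_zero 30 hy₁) (pow_ne_zero 30 hy₂) (pow_ne_zero 30 hy₃)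
    (d90 hvx) (d90 hwx) (d90 hwx') (d90 hvy) (d90 hwy) (d90 hwy')
    (by simpa only [mul_pow] using dr hy₁ hy₂ hvr) (by simpa only [mul_pow] using dr hy₁ hy₃ hwr)
    (by simpa only [mul_pow] using dr hy₂ hy₃ hwr')
    (fun e => hwy' (by rw [show (90 : ℕ) = 30 * 3 from rfl, pow_mul, pow_mul, e])) fun i₀ => ?_
  obtain ⟨i, hi, e⟩ := key i₀
  have hN : ∀ i, (![x₁ ^ 30 * y₂ ^ 30, x₂ ^ 30 * y₃ ^ 30, x₃ ^ 30 * y₁ ^ 30, x₁ ^ 30 * y₃ ^ 30,
      x₃ ^ 30 * y₂ ^ 30, x₂ ^ 30 * y₁ ^ 30] : Fin 6 → K) i = M i ^ 30 := by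
    intro i; fin_cases i <;> simp [hMdef, mul_pow]
  exact ⟨i, hi, by rw [hN, hN, e]⟩

end FA.BeukersSchlickewei

end
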