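import Fermat.Agent.BeukersSchlickewei.Pade
import Fermat.Agent.BeukersSchlickewei.SmallPoints
import Mathlib.MeasureTheory.Covering.BesicovitchVectorSpace
import Mathlib.Analysis.SpecialFunctions.Log.Basic
import Mathlib.Analysis.Complex.ExponentialBounds

/-!
# Counting the solutions of `x + y = 1` in a number field

Modulo torsion a group of rank `r` lies in a normed space of dimension `r`, the norm being the
height. The solutions of small height in a small ball are small points of a line, those of large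
height in a narrow cone grow geometrically within a bounded ratio, and balls and cones are few.
-/

set_option autoImplicit false

noncomputable section

open Height NumberField Finset Module

namespace FA.BeukersSchlickewei

/-- A set in a ball splits into boundedly many sets of small diameter. -/
theorem card_le_of_fibres {V : Type*} [NormedAddCommGroup V] [NormedSpace ℝ V]
    [FiniteDimensional ℝ V] {r : ℕ} (hr : finrank ℝ V ≤ r) {α : Type*} [DecidableEq α] (φ : α → V)
    (N : ℕ) : ∀ (k : ℕ) (S : Finset α) (c : V) (R : ℝ), 0 < R → (∀ x ∈ S, ‖φ x - c‖ ≤ R) →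
      (∀ T ⊆ S, (∀ x ∈ T, ∀ y ∈ T, ‖φ x - φ y‖ ≤ 2 * R / 2 ^ k) → T.card ≤ N) →
      S.card ≤ 5 ^ (r * k) * N := by
  classical
  intro k
  induction k with
  | zero =>
    intro S c R _ hball hsmall
    simpa using hsmall S subset_rfl fun x hx y hy => by
      calc ‖φ x - φ y‖ ≤ ‖φ x - c‖ + ‖φ y - c‖ := by
            simpa using norm_sub_le (φ x - c) (φ y - c)
        _ ≤ 2 * R / 2 ^ 0 := by have := hball x hx; have := hball y hy; simp; linarith
  | succ k ih =>
    intro S c R hR hball hsmall
    obtain ⟨T, hT, hmax⟩ := exists_max_image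
      (S.powerset.filter fun T : Finset α => Set.Pairwise (T : Set α)
        fun x y => R / 2 < ‖φ x - φ y‖) Finset.card
      ⟨∅, by simp⟩
    rw [mem_filter, mem_powerset] at hT
    have hcard : T.card ≤ 5 ^ r := by
      set f : α → V := fun x => (2 / R) • (φ x - c)
      have hsep : ∀ x ∈ T, ∀ y ∈ T, x ≠ y → 1 < ‖f x - f y‖ := fun x hx y hy hxy => by
        simp only [f, ← smul_sub, sub_sub_sub_cancel_right, norm_smul, Real.norm_eq_abs,
          abs_of_pos (div_pos two_pos hR)]
        have : R / 2 < ‖φ x - φ y‖ := hT.2 hx hy hxy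
        field_simp
        linarith
      have hinj : Set.InjOn f T := fun x hx y hy h => by
        by_contra hxy
        have := hsep x hx y hy hxy
        simp [h] at this
        linarith
      rw [← card_image_of_injOn hinj]
      refine (Besicovitch.card_le_of_separated _ ?_ ?_).trans
        (Nat.pow_le_pow_right (by norm_num) hr)
      · intro z hz
        obtain ⟨x, hx, rfl⟩ := mem_image.1 hz
        simp only [f, norm_smul, Real.norm_eq_abs, abs_of_pos (div_pos two_pos hR)]
        have := hball x (hT.1 hx)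
        field_simp
        linarith
      · intro z hz w hw hzw
        obtain ⟨x, hx, rfl⟩ := mem_image.1 hz
        obtain ⟨y, hy, rfl⟩ := mem_image.1 hw
        exact (hsep x hx y hy fun h => hzw (by rw [h])).le
    have hcover : S ⊆ T.biUnion fun t => S.filter fun x => ‖φ x - φ t‖ ≤ R / 2 := by
      intro x hx
      by_contra hx'
      simp only [mem_biUnion, mem_filter, hx, true_and, not_exists, not_and, not_le] at hx'
      have hxT : x ∉ T := fun h => by
        have := hx' x h
        simp at this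
        linarith
      have h := hmax (insert x T) (by
        rw [mem_filter, mem_powerset, insert_subset_iff, coe_insert]
        exact ⟨⟨hx, hT.1⟩,
          hT.2.insert fun y hy _ => ⟨hx' y hy, norm_sub_rev (φ x) (φ y) ▸ hx' y hy⟩⟩)
      rw [card_insert_of_notMem hxT] at h
      omega
    refine (card_le_card hcover).trans ((card_biUnion_le).trans ?_)
    refine (sum_le_card_nsmul T _ (5 ^ (r * k) * N) fun t _ => ?_).trans ?_
    · refine ih _ (φ t) (R / 2) (by linarith) (fun x hx => (mem_filter.1 hx).2) fun U hU hd => ?_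
      refine hsmall U (hU.trans (filter_subset _ _)) fun x hx y hy => (hd x hx y hy).trans_eq ?_
      rw [pow_succ]; field_simp
    · rw [smul_eq_mul, Nat.mul_succ, pow_add, ← mul_assoc]
      exact Nat.mul_le_mul_right _ ((Nat.mul_comm _ _).trans_le (Nat.mul_le_mul_left _ hcard))

variable {K : Type*} [Field K] [NumberField K]

/-- The gap principle. -/
theorem pairHeight_gap {u v : Kˣ × Kˣ} (hu : (u.1 : K) + u.2 = 1) (hv : (v.1 : K) + v.2 = 1)
    (huv : u ≠ v) : pairHeight u / 2 ≤ 1 + pairHeight (v * u⁻¹) := by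
  set w := v * u⁻¹ with hwdef
  have hx : (u.1 : K) * w.1 = v.1 := by simp [hwdef]; field_simp
  have hy : (u.2 : K) * w.2 = v.2 := by simp [hwdef]; field_simp
  have hne : (w.2 : K) - w.1 ≠ 0 := by
    intro h
    have e : (w.2 : K) = w.1 := sub_eq_zero.1 h
    have h1 : (w.1 : K) = 1 := by linear_combination hx + hy + hv - (w.1 : K) * hu - (u.2 : K) * e
    rw [h1, mul_one] at hx
    rw [e, h1, mul_one] at hy
    exact huv (Prod.ext (Units.ext hx) (Units.ext hy))
  have key := relation_bound (x := (u.1 : K)) (y := (u.2 : K)) (w₁ := (w.1 : K)) (w₂ := (w.2 : K))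
    (N := 1) (m := 0) (A := 1) (B := 1) (D := -1) (L := 1) le_rfl
    (by refine ⟨by simp, fun i => ?_⟩; rw [Polynomial.coeff_one]; split_ifs <;> simp)
    (by refine ⟨by simp, fun i => ?_⟩; rw [Polynomial.coeff_one]; split_ifs <;> simp)
    (by refine ⟨by simp, fun i => ?_⟩; rw [Polynomial.coeff_neg, Polynomial.coeff_one]
        split_ifs <;> simp)
    (by simp; linear_combination hu) (by simp only [pow_one]; linear_combination hx + hy + hv)
    (by simpa using hne)
  have hd : (0 : ℝ) < finrank ℚ K := mod_cast finrank_pos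
  have ht := logHeight₁_le_triple (u.1 : K) (u.2 : K)
  have ht' := logHeight_triple_le (w.1 : K) (w.2 : K)
  have hl : Real.log (2 * (((0 : ℕ) : ℝ) + 1) * ((1 : ℤ) : ℝ)) ≤ 1 := by
    simpa using Real.log_two_lt_d9.le.trans (by norm_num)
  have hm := mul_le_mul_of_nonneg_left hl hd.le
  simp only [Nat.cast_zero, Nat.cast_one, zero_add, mul_one, Int.cast_one, zero_mul, add_zero,
    one_mul] at key hm
  rw [pairHeight, pairHeight, div_div, div_le_iff₀ (by positivity)]
  field_simp
  linarith

/-- The height of a solution against a power of another. -/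
theorem pairHeight_power {u v : Kˣ × Kˣ} (hu : (u.1 : K) + u.2 = 1) (hv : (v.1 : K) + v.2 = 1)
    {m : ℕ} (hm : 1 ≤ m) : m * pairHeight u / 2 ≤ 10 * m + pairHeight (v * (u ^ (2 * m))⁻¹) := by
  obtain ⟨A, B, D, A', B', D', hP, id1, id2, k, hk, hcross⟩ := exists_pade hm
  set w := v * (u ^ (2 * m))⁻¹ with hwdef
  set x := (u.1 : K)
  set y := (u.2 : K)
  have hx : x ^ (2 * m) * w.1 = v.1 := by
    simp only [hwdef, x, Prod.fst_mul, Prod.fst_inv, Prod.pow_fst, Units.val_mul,
      Units.val_inv_eq_inv_val, Units.val_pow_eq_pow_val]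
    field_simp
  have hy : y ^ (2 * m) * w.2 = v.2 := by
    simp only [hwdef, y, Prod.snd_mul, Prod.snd_inv, Prod.pow_snd, Units.val_mul,
      Units.val_inv_eq_inv_val, Units.val_pow_eq_pow_val]
    field_simp
  have hev : ∀ {P Q R : Polynomial ℤ}, Polynomial.X ^ (2 * m) * P +
      (1 - Polynomial.X) ^ (2 * m) * Q + R = 0 → x ^ (2 * m) * Polynomial.aeval x P +
        y ^ (2 * m) * Polynomial.aeval x Q + Polynomial.aeval x R = 0 := fun h => by
    have h' := congrArg (Polynomial.aeval x) h
    rw [show y = 1 - x by linear_combination hu]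
    simpa using h'
  have key : ∃ P Q R : Polynomial ℤ, (∀ S ∈ [P, Q, R], S.natDegree ≤ m ∧
      ∀ i, |S.coeff i| ≤ 2 ^ (11 * m)) ∧ x ^ (2 * m) * Polynomial.aeval x P +
        y ^ (2 * m) * Polynomial.aeval x Q + Polynomial.aeval x R = 0 ∧
      Polynomial.aeval x P * (w.2 : K) - Polynomial.aeval x Q * w.1 ≠ 0 := by
    by_cases h : Polynomial.aeval x A * (w.2 : K) - Polynomial.aeval x B * w.1 = 0
    · refine ⟨A', B', D', fun S hS => hP S (by simp at hS ⊢; tauto), hev id2, fun h' => ?_⟩
      have := congrArg (Polynomial.aeval x) hcross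
      simp only [map_sub, map_mul, eq_intCast, map_intCast] at this
      have h0 : (k : K) * w.1 = 0 := by
        linear_combination (Polynomial.aeval x A') * h - (Polynomial.aeval x A) * h' -
          (w.1 : K) * this
      exact mul_ne_zero (Int.cast_ne_zero.2 hk) (Units.ne_zero _) h0
    · exact ⟨A, B, D, fun S hS => hP S (by simp at hS ⊢; tauto), hev id1, h⟩
  obtain ⟨P, Q, R, hPQR, hrel, hne⟩ := key
  have key := relation_bound (one_le_pow₀ (show (1 : ℤ) ≤ 2 by norm_num)) (hPQR P (by simp))
    (hPQR Q (by simp)) (hPQR R (by simp)) hrel (by linear_combination hx + hy + hv) hne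
  have hd : (0 : ℝ) < finrank ℚ K := mod_cast finrank_pos
  have ht := logHeight₁_le_triple x y
  have ht' := logHeight_triple_le (w.1 : K) (w.2 : K)
  have hl : Real.log (2 * ((m + 1) * ((2 ^ (11 * m) : ℤ) : ℝ))) ≤ 10 * m := by
    have h1 : ((m : ℝ) + 1) ≤ 2 ^ m := by exact_mod_cast Nat.lt_two_pow_self
    have h2 : 2 * ((m + 1) * ((2 ^ (11 * m) : ℤ) : ℝ)) ≤ 2 ^ (13 * m) := by
      push_cast
      calc (2 : ℝ) * ((m + 1) * 2 ^ (11 * m)) ≤ 2 ^ m * (2 ^ m * 2 ^ (11 * m)) := by
            gcongr; exact le_self_pow₀ (by norm_num) (by omega)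
        _ = 2 ^ (13 * m) := by rw [← pow_add, ← pow_add]; congr 1; omega
    refine (Real.log_le_log (by positivity) h2).trans ?_
    rw [Real.log_pow]
    push_cast
    nlinarith [Real.log_two_lt_d9, (show (0 : ℝ) ≤ m from Nat.cast_nonneg m)]
  have hm1 := mul_le_mul_of_nonneg_left hl hd.le
  have hm2 := mul_le_mul_of_nonneg_left ht.1 (Nat.cast_nonneg (α := ℝ) m)
  have hm3 := mul_le_mul_of_nonneg_left (add_le_add ht.1 ht.2) (Nat.cast_nonneg (α := ℝ) m)
  rw [Nat.cast_mul, Nat.cast_two] at key
  rw [pairHeight, pairHeight]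
  field_simp
  linarith

theorem card_le_of_ratio {α : Type*} [DecidableEq α] {f : α → ℝ} {T : Finset α}
    (hpos : ∀ x ∈ T, 0 < f x) (hgap : ∀ x ∈ T, ∀ y ∈ T, x ≠ y → f x ≤ f y → 13 / 10 * f x ≤ f y)
    (hbound : ∀ x ∈ T, ∀ y ∈ T, f y ≤ 42 * f x) : T.card ≤ 15 := by
  rcases T.eq_empty_or_nonempty with rfl | hne
  · simp
  have key : ∃ u ∈ T, ∃ v ∈ T, (13 / 10 : ℝ) ^ (T.card - 1) * f u ≤ f v := by
    clear hbound hpos
    induction T using Finset.induction_on_min_value f with
    | empty => simp at hne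
    | insert a s ha hle ih =>
      rw [card_insert_of_notMem ha, Nat.add_sub_cancel]
      rcases s.eq_empty_or_nonempty with rfl | hs
      · exact ⟨a, by simp, a, by simp, by simp⟩
      obtain ⟨u, hu, v, hv, h⟩ :=
        ih (fun x hx y hy => hgap x (mem_insert_of_mem hx) y (mem_insert_of_mem hy)) hs
      refine ⟨a, mem_insert_self a s, v, mem_insert_of_mem hv, le_trans ?_ h⟩
      have hg := hgap a (mem_insert_self a s) u (mem_insert_of_mem hu)
        (fun e => ha (e ▸ hu)) (hle u hu)
      obtain ⟨n, hn⟩ : ∃ n, s.card = n + 1 := ⟨s.card - 1, by have := card_pos.2 hs; omega⟩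
      rw [hn, Nat.add_sub_cancel, pow_succ, mul_assoc]
      exact mul_le_mul_of_nonneg_left hg (by positivity)
  obtain ⟨u, hu, v, hv, h⟩ := key
  by_contra hc
  have h1 : (13 / 10 : ℝ) ^ 15 ≤ (13 / 10 : ℝ) ^ (T.card - 1) :=
    pow_le_pow_right₀ (by norm_num) (by omega)
  have h2 := le_of_mul_le_mul_right (h.trans (hbound u hu v hv)) (hpos u hu)
  norm_num at h1
  linarith

/-- Counting in a group whose logarithms span a space of dimension `r`. -/
theorem card_solutions_of_mem {r : ℕ} {P : Finset (FinitePlace K)} (E : Submodule ℝ (LogSpace P))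
    (hE : finrank ℝ E ≤ r) (S : Finset (Kˣ × Kˣ))
    (hPS : ∀ u ∈ S, ∀ v ∉ P, v (u.1 : K) = 1 ∧ v (u.2 : K) = 1)
    (hmem : ∀ u ∈ S, logHom P (Additive.ofMul u) ∈ E)
    (hS : ∀ u ∈ S, (u.1 : K) + u.2 = 1) : S.card ≤ 555 * 5 ^ (19 * r) := by
  classical
  set L := logHom P
  have hmem' : ∀ u, (if u ∈ S then L (Additive.ofMul u) else 0) ∈ E := fun u => by
    split_ifs with h
    exacts [hmem u h, zero_mem E]
  set ψ : Kˣ × Kˣ → E := fun u => Subtype.mk _ (hmem' u) with hψ
  have hnorm : ∀ u ∈ S, ‖ψ u‖ = pairHeight u := fun u hu => by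
    rw [hψ]; simp only [Submodule.coe_norm, if_pos hu]; exact norm_logHom P (hPS u hu)
  have hdiff : ∀ u ∈ S, ∀ v ∈ S, ∀ N : ℕ,
      ‖ψ v - (N : ℝ) • ψ u‖ = pairHeight (v * (u ^ N)⁻¹) := by
    intro u hu v hv N
    rw [hψ]
    simp only [Submodule.coe_norm, Submodule.coe_sub, Submodule.coe_smul, if_pos hu, if_pos hv]
    rw [← norm_logHom P (u := v * (u ^ N)⁻¹) fun p hp => ?_]
    · simp only [Nat.cast_smul_eq_nsmul, ofMul_mul, ofMul_inv, ofMul_pow, map_add, map_neg,
        map_nsmul, sub_eq_add_neg]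
      rfl
    · simp [(hPS u hu p hp).1, (hPS u hu p hp).2, (hPS v hv p hp).1, (hPS v hv p hp).2]
  rw [← card_filter_add_card_filter_not (fun u => pairHeight u ≤ 40)]
  set S₁ := S.filter fun u => pairHeight u ≤ 40
  set S₂ := S.filter fun u => ¬pairHeight u ≤ 40
  have h1 : S₁.card ≤ 5 ^ (r * 19) * 540 := by
    refine card_le_of_fibres hE ψ 540 19 S₁ 0 40 (by norm_num) (fun u hu => ?_) fun T hT hd => ?_
    · rw [sub_zero, hnorm u (mem_filter.1 hu).1]; exact (mem_filter.1 hu).2
    rcases T.eq_empty_or_nonempty with rfl | ⟨u₀, hu₀⟩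
    · simp
    have hu₀S : u₀ ∈ S := (mem_filter.1 (hT hu₀)).1
    rw [← card_image_of_injective T (mul_left_injective u₀⁻¹)]
    refine card_small_points_le (a := (u₀.1 : K)) (b := (u₀.2 : K)) (Units.ne_zero _)
      (Units.ne_zero _) _ (fun w hw => ?_) fun w hw => ?_ <;> obtain ⟨v, hv, rfl⟩ := mem_image.1 hw
    · have := hS v (mem_filter.1 (hT hv)).1
      simp only [Prod.fst_mul, Prod.snd_mul, Prod.fst_inv, Prod.snd_inv, Units.val_mul,
        Units.val_inv_eq_inv_val]
      field_simp
      exact this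
    · have h := hdiff u₀ hu₀S v (mem_filter.1 (hT hv)).1 1
      rw [pow_one, Nat.cast_one, one_smul] at h
      rw [← h]
      exact (hd v hv u₀ hu₀).trans (by norm_num)
  have h2 : S₂.card ≤ 5 ^ (r * 6) * 15 := by
    have hpos : ∀ u ∈ S₂, 40 < pairHeight u := fun u hu => not_le.1 (mem_filter.1 hu).2
    refine card_le_of_fibres hE (fun u => (pairHeight u)⁻¹ • ψ u) 15 6 S₂ 0 1 one_pos
      (fun u hu => ?_) fun T hT hd => ?_
    · rw [sub_zero, norm_smul, hnorm u (mem_filter.1 hu).1, Real.norm_eq_abs,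
        abs_of_pos (inv_pos.2 (by linarith [hpos u hu])),
        inv_mul_cancel₀ (by linarith [hpos u hu])]
    have hcone : ∀ u ∈ T, ∀ v ∈ T, ∀ N : ℕ, pairHeight (v * (u ^ N)⁻¹) ≤
        |pairHeight v - N * pairHeight u| + N * pairHeight u * (1 / 20) := by
      intro u hu v hv N
      have hu' := hpos u (hT hu)
      have hv' := hpos v (hT hv)
      have hd' : ‖(pairHeight v)⁻¹ • ψ v - (pairHeight u)⁻¹ • ψ u‖ ≤ 1 / 20 :=
        (hd v hv u hu).trans (by norm_num)
      rw [← hdiff u (mem_filter.1 (hT hu)).1 v (mem_filter.1 (hT hv)).1 N,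
        show ψ v - (N : ℝ) • ψ u =
            (pairHeight v - N * pairHeight u) • ((pairHeight v)⁻¹ • ψ v) + (N * pairHeight u) •
              ((pairHeight v)⁻¹ • ψ v - (pairHeight u)⁻¹ • ψ u) by
          have : pairHeight u ≠ 0 := by linarith
          have : pairHeight v ≠ 0 := by linarith
          match_scalars <;> field_simp
          ring]
      refine (norm_add_le _ _).trans (add_le_add (le_of_eq ?_) ?_)
      · rw [norm_smul, norm_smul, hnorm v (mem_filter.1 (hT hv)).1, Real.norm_eq_abs,
          Real.norm_eq_abs, abs_of_pos (inv_pos.2 (by linarith : (0 : ℝ) < pairHeight v)),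
          inv_mul_cancel₀ (by linarith), mul_one]
      · rw [norm_smul, Real.norm_eq_abs, abs_of_nonneg (mul_nonneg (Nat.cast_nonneg _)
          (by linarith))]
        exact mul_le_mul_of_nonneg_left hd' (mul_nonneg (Nat.cast_nonneg _) (by linarith))
    refine card_le_of_ratio (fun u hu => by linarith [hpos u (hT hu)])
      (fun u hu v hv huv hle => ?_) fun u hu v hv => ?_
    · have g := pairHeight_gap (hS u (mem_filter.1 (hT hu)).1) (hS v (mem_filter.1 (hT hv)).1) huv
      have c := hcone u hu v hv 1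
      rw [pow_one, Nat.cast_one, one_mul, abs_of_nonneg (by linarith)] at c
      have := hpos u (hT hu)
      linarith
    · by_contra hlt
      rw [not_le] at hlt
      have h40 := hpos u (hT hu)
      set l := pairHeight v / pairHeight u
      have hl : (42 : ℝ) < l := by rw [lt_div_iff₀ (by linarith)]; exact hlt
      set m := ⌊l / 2⌋₊
      have hm : 21 ≤ m := Nat.le_floor (by push_cast; linarith)
      have hmle : (m : ℝ) ≤ l / 2 := Nat.floor_le (by linarith)
      have hmlt : l / 2 < m + 1 := Nat.lt_floor_add_one _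
      have hv' : pairHeight v = l * pairHeight u := by rw [div_mul_cancel₀ _ (by linarith)]
      have p := pairHeight_power (hS u (mem_filter.1 (hT hu)).1) (hS v (mem_filter.1 (hT hv)).1)
        (show 1 ≤ m by omega)
      have c := hcone u hu v hv (2 * m)
      rw [Nat.cast_mul, Nat.cast_two, hv', ← sub_mul, abs_mul,
        abs_of_pos (show (0 : ℝ) < pairHeight u by linarith)] at c
      have ha : |l - 2 * m| * pairHeight u ≤ 2 * pairHeight u :=
        mul_le_mul_of_nonneg_right (by rw [abs_le]; constructor <;> linarith) (by linarith)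
      have hm' : (21 : ℝ) ≤ m := by exact_mod_cast hm
      nlinarith [mul_le_mul hm' h40.le (by norm_num) (by positivity)]
  have h3 : 5 ^ (r * 6) ≤ 5 ^ (r * 19) := Nat.pow_le_pow_right (by norm_num) (by omega)
  rw [mul_comm 19 r]
  omega

/-- **Beukers–Schlickewei over a number field.** -/
theorem card_solutions_le {r : ℕ} (g : Fin r → Kˣ × Kˣ) (S : Finset (Kˣ × Kˣ))
    (hspan : ∀ u ∈ S, ∃ k : ℕ, 0 < k ∧ ∃ n : Fin r → ℤ, u ^ k = ∏ i, g i ^ n i)
    (hS : ∀ u ∈ S, (u.1 : K) + u.2 = 1) : S.card ≤ 555 * 5 ^ (19 * r) := by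
  classical
  set P : Finset (FinitePlace K) := S.biUnion fun u =>
    (FinitePlace.hasFiniteMulSupport (Units.ne_zero u.1)).toFinset ∪
      (FinitePlace.hasFiniteMulSupport (Units.ne_zero u.2)).toFinset with hP
  set L := logHom P
  refine card_solutions_of_mem (P := P)
    (Submodule.span ℝ (Set.range fun i => L (Additive.ofMul (g i))))
    ((finrank_range_le_card _).trans (Fintype.card_fin r).le) S (fun u hu v hv => ?_)
    (fun u hu => ?_) hS
  · simp only [hP, mem_biUnion, mem_union, Set.Finite.mem_toFinset, Function.mem_mulSupport,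
      not_exists, not_and, not_or, not_not] at hv
    exact hv u hu
  · obtain ⟨k, hk, n, hn⟩ := hspan u hu
    have h := congrArg (fun z => L (Additive.ofMul z)) hn
    simp only [ofMul_pow, ofMul_prod, ofMul_zpow, map_nsmul, map_sum, map_zsmul] at h
    rw [← Nat.cast_smul_eq_nsmul ℝ] at h
    refine (Submodule.smul_mem_iff _ (Nat.cast_ne_zero.2 hk.ne' : (k : ℝ) ≠ 0)).1 ?_
    rw [h]
    exact Submodule.sum_mem _ fun i _ =>
      zsmul_mem (Submodule.subset_span (Set.mem_range_self i)) _

end FA.BeukersSchlickewei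

end
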