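import Mathlib.NumberTheory.Height.NumberField
import Mathlib.Algebra.Polynomial.Eval.Degree
import Mathlib.Analysis.Normed.Lp.PiLp
import Mathlib.Algebra.BigOperators.Fin

/-!
# Heights for the equation `x + y = 1`

A tuple bounded place by place has bounded height; the height of a relation
`x ^ N * A + y ^ N * B + D = 0` crossed with `x ^ N * a + y ^ N * b = 1`; and the height on the
multiplicative group of pairs as the `L¹` norm of the vector of logarithms.
-/

set_option autoImplicit false

noncomputable section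

open Height NumberField Finset

namespace FA.BeukersSchlickewei

variable {K : Type*} [Field K] [NumberField K]

theorem infinitePlace_intCast (v : InfinitePlace K) (n : ℤ) : v (n : K) = |(n : ℝ)| := by
  rw [← InfinitePlace.norm_embedding_eq, map_intCast, Complex.norm_intCast]

theorem infinitePlace_natCast (v : InfinitePlace K) (n : ℕ) : v (n : K) = n := by
  simpa using infinitePlace_intCast v n

theorem finitePlace_intCast_le (v : FinitePlace K) (n : ℤ) : v (n : K) ≤ 1 :=
  IsNonarchimedean.apply_intCast_le_one (f := v.1) (FinitePlace.add_le v)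

theorem prod_finitePlace_natCast {q : ℕ} (hq : q ≠ 0) :
    ∏ᶠ v : FinitePlace K, v (q : K) = ((q : ℝ) ^ Module.finrank ℚ K)⁻¹ := by
  have h := prod_abs_eq_one (x := (q : K)) (mod_cast hq)
  simp only [infinitePlace_natCast, prod_pow_eq_pow_sum, InfinitePlace.sum_mult_eq] at h
  exact eq_inv_of_mul_eq_one_right h

theorem finite_mulSupport_iSup {α : Type*} [Finite α] {y : α → K} (hy : y ≠ 0) :
    (fun v : FinitePlace K => ⨆ i, v (y i)).HasFiniteMulSupport := by
  obtain ⟨i₀, hi₀⟩ := Function.ne_iff.1 hy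
  have hf : (⋃ i : {i // y i ≠ 0}, Function.mulSupport fun v : FinitePlace K => v (y i)).Finite :=
    Set.finite_iUnion fun i => FinitePlace.hasFiniteMulSupport i.2
  refine hf.subset fun v hv => ?_
  by_contra h
  simp only [Set.mem_iUnion, not_exists, Function.mem_mulSupport, not_not] at h
  have : Nonempty α := ⟨i₀⟩
  refine hv (le_antisymm (ciSup_le fun i => ?_) ?_)
  · rcases eq_or_ne (y i) 0 with hi | hi
    · simp [hi]
    · exact (h ⟨i, hi⟩).le
  · exact (h ⟨i₀, hi₀⟩).ge.trans (Finite.le_ciSup (fun j => v (y j)) i₀)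

/-- A tuple bounded place by place has bounded height. -/
theorem logHeight_le_of_le {α β : Type*} [Finite α] [Finite β] {z : α → K} {y : β → K}
    (hz : z ≠ 0) (hy : y ≠ 0) {a : ℝ} (ha : 1 ≤ a) {q : ℕ} (hq : q ≠ 0)
    (harch : ∀ (v : InfinitePlace K) i, v (z i) ≤ a * ⨆ j, v (y j))
    (hfin : ∀ (v : FinitePlace K) i, v (z i) ≤ v (q : K) * ⨆ j, v (y j)) :
    logHeight z + Module.finrank ℚ K * Real.log q ≤
      Module.finrank ℚ K * Real.log a + logHeight y := by
  have : Nonempty α := (Function.ne_iff.1 hz).nonempty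
  have hqK : (q : K) ≠ 0 := mod_cast hq
  have hP : ∏ v : InfinitePlace K, (⨆ i, v (z i)) ^ v.mult ≤
      a ^ Module.finrank ℚ K * ∏ v : InfinitePlace K, (⨆ j, v (y j)) ^ v.mult := by
    rw [← InfinitePlace.sum_mult_eq, ← prod_pow_eq_pow_sum, ← prod_mul_distrib]
    refine prod_le_prod (fun v _ => pow_nonneg (Real.iSup_nonneg_of_nonnegHomClass ..) _)
      fun v _ => ?_
    rw [← mul_pow]
    exact pow_le_pow_left₀ (Real.iSup_nonneg_of_nonnegHomClass ..) (ciSup_le (harch v)) _
  have hF : ∏ᶠ v : FinitePlace K, (⨆ i, v (z i)) ≤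
      ∏ᶠ v : FinitePlace K, (v (q : K) * ⨆ j, v (y j)) :=
    finprod_le_finprod (finite_mulSupport_iSup hz)
      (fun v => Real.iSup_nonneg_of_nonnegHomClass v _)
      ((FinitePlace.hasFiniteMulSupport hqK).mul (finite_mulSupport_iSup hy))
      fun v => ciSup_le (hfin v)
  rw [finprod_mul_distrib (FinitePlace.hasFiniteMulSupport hqK) (finite_mulSupport_iSup hy),
    prod_finitePlace_natCast hq] at hF
  have hm : mulHeight z * (q : ℝ) ^ Module.finrank ℚ K ≤
      a ^ Module.finrank ℚ K * mulHeight y := by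
    rw [NumberField.mulHeight_eq hz, NumberField.mulHeight_eq hy, ← le_div_iff₀ (by positivity)]
    refine (mul_le_mul hP hF (finprod_nonneg fun v => Real.iSup_nonneg_of_nonnegHomClass v _)
      (mul_nonneg (by positivity)
        (prod_nonneg fun v _ => pow_nonneg (Real.iSup_nonneg_of_nonnegHomClass ..) _))).trans_eq ?_
    rw [div_eq_mul_inv]; ring
  have h := Real.log_le_log (mul_pos (mulHeight_pos z) (by positivity)) hm
  rw [Real.log_mul (mulHeight_ne_zero _) (by positivity),
    Real.log_mul (by positivity) (mulHeight_ne_zero _), Real.log_pow, Real.log_pow] at h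
  exact h

theorem logHeight_triple_le (a b : K) :
    logHeight ![a, b, 1] ≤ logHeight₁ a + logHeight₁ b := by
  rw [logHeight₁_eq_logHeight, logHeight₁_eq_logHeight,
    ← logHeight_fun_mul_eq (x := ![a, 1]) (y := ![b, 1]) (by simp) (by simp)]
  refine le_of_eq_of_le (congrArg logHeight ?_) (logHeight_comp_le
    ![((0 : Fin 2), (1 : Fin 2)), (1, 0), (1, 1)] _)
  funext i; fin_cases i <;> simp

theorem logHeight₁_le_triple (a b : K) :
    logHeight₁ a ≤ logHeight ![a, b, 1] ∧ logHeight₁ b ≤ logHeight ![a, b, 1] := by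
  constructor <;> rw [logHeight₁_eq_logHeight]
  · refine le_of_eq_of_le (congrArg logHeight ?_) (logHeight_comp_le ![(0 : Fin 3), 2] _)
    funext i; fin_cases i <;> rfl
  · refine le_of_eq_of_le (congrArg logHeight ?_) (logHeight_comp_le ![(1 : Fin 3), 2] _)
    funext i; fin_cases i <;> rfl

theorem eval_le_arch (v : InfinitePlace K) {P : Polynomial ℤ} {m : ℕ} {L : ℤ}
    (hdeg : P.natDegree ≤ m) (hc : ∀ i, |P.coeff i| ≤ L) (x : K) :
    v (Polynomial.aeval x P) ≤ (m + 1) * L * max (v x) 1 ^ m := by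
  rw [Polynomial.aeval_eq_sum_range' (Nat.lt_succ_of_le hdeg), InfinitePlace.coe_apply]
  refine (v.1.sum_le _ _).trans ((sum_le_sum fun i hi => ?_).trans
    (by rw [sum_const, card_range, nsmul_eq_mul]; push_cast; rw [mul_assoc]))
  rw [zsmul_eq_mul, ← InfinitePlace.coe_apply, map_mul, map_pow, infinitePlace_intCast,
    InfinitePlace.coe_apply]
  refine mul_le_mul (by exact_mod_cast hc i) ?_ (pow_nonneg (apply_nonneg _ _) _)
    (by exact_mod_cast (abs_nonneg _).trans (hc i))
  exact (pow_le_pow_left₀ (apply_nonneg _ _) (le_max_left _ _) i).trans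
    (pow_le_pow_right₀ (le_max_right _ _) (Nat.lt_succ_iff.1 (mem_range.1 hi)))

theorem eval_le_finite (v : FinitePlace K) {P : Polynomial ℤ} {m : ℕ}
    (hdeg : P.natDegree ≤ m) (x : K) :
    v (Polynomial.aeval x P) ≤ max (v x) 1 ^ m := by
  rw [Polynomial.aeval_eq_sum_range' (Nat.lt_succ_of_le hdeg)]
  obtain ⟨i, hi, hv⟩ := IsNonarchimedean.finset_image_add_of_nonempty (f := v.1)
    (FinitePlace.add_le v) (fun i => P.coeff i • x ^ i) (nonempty_range_iff.2 m.succ_ne_zero)
  refine hv.trans ?_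
  rw [zsmul_eq_mul, map_mul, map_pow]
  exact (mul_le_of_le_one_left (pow_nonneg (apply_nonneg _ _) _) (finitePlace_intCast_le v _)).trans
    ((pow_le_pow_left₀ (apply_nonneg _ _) (le_max_left _ _) i).trans
      (pow_le_pow_right₀ (le_max_right _ _) (Nat.lt_succ_iff.1 (mem_range.1 hi))))

/-- **The height of a solution of two linear equations.** -/
theorem relation_bound {x y w₁ w₂ : K} {N m : ℕ} {A B D : Polynomial ℤ} {L : ℤ} (hL : 1 ≤ L)
    (hA : A.natDegree ≤ m ∧ ∀ i, |A.coeff i| ≤ L) (hB : B.natDegree ≤ m ∧ ∀ i, |B.coeff i| ≤ L)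
    (hD : D.natDegree ≤ m ∧ ∀ i, |D.coeff i| ≤ L)
    (hrel : x ^ N * Polynomial.aeval x A + y ^ N * Polynomial.aeval x B + Polynomial.aeval x D = 0)
    (hw : x ^ N * w₁ + y ^ N * w₂ = 1)
    (hne : Polynomial.aeval x A * w₂ - Polynomial.aeval x B * w₁ ≠ 0) :
    N * logHeight ![x, y, 1] ≤ Module.finrank ℚ K * Real.log (2 * ((m + 1) * L)) +
      m * logHeight₁ x + logHeight ![w₁, w₂, 1] := by
  set a := Polynomial.aeval x A
  set b := Polynomial.aeval x B
  set c := Polynomial.aeval x D
  set e := a * w₂ - b * w₁ with he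
  set z : Fin 3 → K := ![-b - c * w₂, a + c * w₁, e] with hz
  set Y : Fin 2 × Fin 3 → K := fun ij => (![x, 1] ^ m) ij.1 * ![w₁, w₂, 1] ij.2 with hY
  have hzeq : z = e • ![x, y, 1] ^ N := by
    funext i; fin_cases i <;>
      simp only [hz, he, Pi.smul_apply, Pi.pow_apply, smul_eq_mul, Fin.zero_eta, Fin.mk_one,
        Fin.reduceFinMk, Matrix.cons_val, one_pow, mul_one]
    · linear_combination -w₂ * hrel + b * hw
    · linear_combination w₁ * hrel - a * hw
  have hz0 : z ≠ 0 := fun h => hne (by simpa [hz] using congrFun h 2)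
  have hY0 : Y ≠ 0 := fun h => by simpa [hY] using congrFun h (1, 2)
  have hterm : ∀ (v : AbsoluteValue K ℝ) (j : Fin 3),
      max (v x) 1 ^ m * v (![w₁, w₂, 1] j) ≤ ⨆ k, v (Y k) := by
    intro v j
    rcases max_cases (v x) 1 with ⟨h, -⟩ | ⟨h, -⟩ <;> rw [h]
    · exact Finite.le_ciSup_of_le (0, j) (by simp [hY])
    · exact Finite.le_ciSup_of_le (1, j) (by simp [hY])
  have hM : (1 : ℝ) ≤ (m + 1) * L :=
    one_le_mul_of_one_le_of_one_le (by simp) (by exact_mod_cast hL)
  have key := logHeight_le_of_le hz0 hY0 (a := 2 * ((m + 1) * L)) (by linarith) one_ne_zero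
    (fun v i => ?_) (fun v i => ?_)
  · have hs : logHeight Y = m * logHeight₁ x + logHeight ![w₁, w₂, 1] := by
      rw [hY, logHeight_fun_mul_eq (fun h => by simpa using congrFun h 1) (by simp),
        logHeight_pow, ← logHeight₁_eq_logHeight]
    rw [hzeq, logHeight_smul_eq_logHeight _ hne, logHeight_pow, hs, Nat.cast_one, Real.log_one,
      mul_zero, add_zero] at key
    linarith
  · have hp : ∀ P : Polynomial ℤ, (P.natDegree ≤ m ∧ ∀ i, |P.coeff i| ≤ L) → ∀ j,
        v (Polynomial.aeval x P) * v (![w₁, w₂, 1] j) ≤ (m + 1) * L * ⨆ k, v (Y k) := by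
      intro P hP j
      refine (mul_le_mul_of_nonneg_right (eval_le_arch v hP.1 hP.2 x) (apply_nonneg _ _)).trans ?_
      rw [mul_assoc ((m + 1 : ℝ) * L)]
      exact mul_le_mul_of_nonneg_left (hterm v.1 j) (by linarith)
    have hb0 := hp B hB 2
    have hc1 := hp D hD 1
    have ha0 := hp A hA 2
    have hc0 := hp D hD 0
    have ha1 := hp A hA 1
    have hb1 := hp B hB 0
    simp only [Matrix.cons_val, map_one, mul_one] at hb0 hc1 ha0 hc0 ha1 hb1
    fin_cases i <;>
      simp only [hz, he, Fin.zero_eta, Fin.mk_one, Fin.reduceFinMk, Matrix.cons_val,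
        InfinitePlace.coe_apply] at *
    · refine (v.1.add_le (-b) (-(c * w₂))).trans' (by rw [sub_eq_add_neg]) |>.trans ?_
      simp only [AbsoluteValue.map_neg, map_mul]; linarith
    · refine (v.1.add_le _ _).trans ?_
      simp only [map_mul]; linarith
    · refine (v.1.add_le _ (-(b * w₁))).trans' (by rw [sub_eq_add_neg]) |>.trans ?_
      simp only [AbsoluteValue.map_neg, map_mul]; linarith
  · rw [Nat.cast_one, map_one, one_mul]
    have hp : ∀ P : Polynomial ℤ, P.natDegree ≤ m → ∀ j,
        v (Polynomial.aeval x P) * v (![w₁, w₂, 1] j) ≤ ⨆ k, v (Y k) := by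
      intro P hP j
      exact (mul_le_mul_of_nonneg_right (eval_le_finite v hP x) (apply_nonneg _ _)).trans
        (hterm v.1 j)
    have hb0 := hp B hB.1 2
    have hc1 := hp D hD.1 1
    have ha0 := hp A hA.1 2
    have hc0 := hp D hD.1 0
    have ha1 := hp A hA.1 1
    have hb1 := hp B hB.1 0
    simp only [Matrix.cons_val, map_one, mul_one] at hb0 hc1 ha0 hc0 ha1 hb1
    fin_cases i <;>
      simp only [hz, he, Fin.zero_eta, Fin.mk_one, Fin.reduceFinMk, Matrix.cons_val]
    · rw [show -b - c * w₂ = -(b + c * w₂) by ring, FinitePlace.coe_apply, AbsoluteValue.map_neg,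
        ← FinitePlace.coe_apply]
      exact (FinitePlace.add_le v _ _).trans (max_le hb0 (by rw [map_mul]; exact hc1))
    · exact (FinitePlace.add_le v _ _).trans (max_le ha0 (by rw [map_mul]; exact hc0))
    · rw [sub_eq_add_neg]
      refine (FinitePlace.add_le v _ _).trans (max_le (by rw [map_mul]; exact ha1) ?_)
      rw [FinitePlace.coe_apply, AbsoluteValue.map_neg, ← FinitePlace.coe_apply, map_mul]
      exact hb1

/-- The height of a pair, normalised by the degree. -/
def pairHeight (u : Kˣ × Kˣ) : ℝ :=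
  (logHeight₁ (u.1 : K) + logHeight₁ (u.2 : K)) / Module.finrank ℚ K

theorem pairHeight_nonneg (u : Kˣ × Kˣ) : 0 ≤ pairHeight u :=
  div_nonneg (add_nonneg (zero_le_logHeight₁ _) (zero_le_logHeight₁ _)) (Nat.cast_nonneg _)

/-- The ambient space of logarithms at the infinite places and the places in `P`. -/
abbrev LogSpace (P : Finset (FinitePlace K)) : Type _ :=
  PiLp 1 fun _ : (InfinitePlace K ⊕ P) × Fin 2 => ℝ

/-- The coordinates of the logarithmic vector. -/
def logCoord (P : Finset (FinitePlace K)) (u : Kˣ × Kˣ) :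
    (InfinitePlace K ⊕ P) × Fin 2 → ℝ
  | (Sum.inl v, i) => v.mult * Real.log (v (![(u.1 : K), u.2] i)) / (2 * Module.finrank ℚ K)
  | (Sum.inr v, i) => Real.log (v.1 (![(u.1 : K), u.2] i)) / (2 * Module.finrank ℚ K)

theorem logCoord_mul (P : Finset (FinitePlace K)) (u v : Kˣ × Kˣ) :
    logCoord P (u * v) = logCoord P u + logCoord P v := by
  funext k
  obtain ⟨w | w, i⟩ := k <;> fin_cases i <;>
    simp only [logCoord, Pi.add_apply, Fin.zero_eta, Fin.mk_one, Matrix.cons_val,
      Prod.fst_mul, Prod.snd_mul, Units.val_mul, map_mul] <;>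
    rw [Real.log_mul] <;> first | ring1 | exact (map_ne_zero _).2 (Units.ne_zero _)

/-- The logarithmic vector. -/
def logHom (P : Finset (FinitePlace K)) : Additive (Kˣ × Kˣ) →+ LogSpace P :=
  AddMonoidHom.mk' (fun u => WithLp.toLp 1 (logCoord P u.toMul)) fun u v => by
    rw [toMul_add, logCoord_mul, WithLp.toLp_add]

theorem posLog_add_posLog_inv (r : ℝ) : Real.posLog r + Real.posLog r⁻¹ = |Real.log r| := by
  simp only [Real.posLog_def, Real.log_inv]
  rcases le_total 0 (Real.log r) with h | h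
  · simp [abs_of_nonneg h, h]
  · simp [abs_of_nonpos h, h]

theorem two_mul_logHeight₁ {x : K} {P : Finset (FinitePlace K)}
    (hP : ∀ v ∉ P, v x = 1) :
    2 * logHeight₁ x = ∑ v : InfinitePlace K, v.mult * |Real.log (v x)| +
      ∑ v ∈ P, |Real.log (v x)| := by
  have hs : ∀ f : ℝ → ℝ, f 1 = 0 → ∑ᶠ v : FinitePlace K, f (v x) = ∑ v ∈ P, f (v x) :=
    fun f hf => finsum_eq_sum_of_support_subset _ fun v hv => by
      by_contra h
      exact hv (show f (v x) = 0 by rw [hP v h, hf])
  have e : 2 * logHeight₁ x = logHeight₁ x + logHeight₁ x⁻¹ := by rw [logHeight₁_inv, two_mul]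
  rw [e, NumberField.logHeight₁_eq, NumberField.logHeight₁_eq]
  simp only [map_inv₀]
  rw [hs Real.posLog (by simp [Real.posLog_def]),
    hs (fun r => Real.posLog r⁻¹) (by simp [Real.posLog_def]), add_add_add_comm,
    ← sum_add_distrib, ← sum_add_distrib]
  simp only [← mul_add, posLog_add_posLog_inv]

/-- **The height is a norm**, away from torsion. -/
theorem norm_logHom (P : Finset (FinitePlace K)) {u : Kˣ × Kˣ}
    (hP : ∀ v ∉ P, v (u.1 : K) = 1 ∧ v (u.2 : K) = 1) :
    ‖logHom P (Additive.ofMul u)‖ = pairHeight u := by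
  rw [PiLp.norm_eq_sum (by norm_num)]
  simp only [logHom, AddMonoidHom.mk'_apply, toMul_ofMul, ENNReal.toReal_one, Real.rpow_one,
    div_one, Real.norm_eq_abs, Fintype.sum_prod_type, Fintype.sum_sum_type, Fin.sum_univ_two,
    logCoord, Matrix.cons_val, abs_div, abs_mul, Nat.abs_cast, abs_two]
  rw [sum_add_distrib, sum_add_distrib, ← sum_div, ← sum_div, ← sum_div, ← sum_div,
    sum_coe_sort P fun v => |Real.log (v (u.1 : K))|,
    sum_coe_sort P fun v => |Real.log (v (u.2 : K))|, pairHeight]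
  have h1 := two_mul_logHeight₁ (x := (u.1 : K)) fun v hv => (hP v hv).1
  have h2 := two_mul_logHeight₁ (x := (u.2 : K)) fun v hv => (hP v hv).2
  have hd : (Module.finrank ℚ K : ℝ) ≠ 0 := mod_cast Module.finrank_pos.ne'
  field_simp
  linarith

end FA.BeukersSchlickewei

end
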