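import Mathlib.Algebra.Polynomial.Derivative
import Mathlib.Algebra.Polynomial.Degree.Lemmas
import Mathlib.Algebra.Polynomial.RingDivision
import Mathlib.RingTheory.Polynomial.Basic
import Mathlib.RingTheory.Coprime.Lemmas
import Mathlib.Data.Nat.Choose.Bounds
import Mathlib.Data.Nat.Factorial.Cast
import Mathlib.Tactic.Ring
import Mathlib.Tactic.LinearCombination

/-!
# Padé identities for powers of `X` and `1 - X`

Two independent identities `X ^ (2 m) A + (1 - X) ^ (2 m) B + C = 0` in integral polynomials of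
degree at most `m` with coefficients exponential in `m`, after Beukers and Schlickewei. They come
from the polynomials whose derivative of order `c` is a multiple of `X ^ a (1 - X) ^ a`.
-/

set_option autoImplicit false

noncomputable section

open Polynomial Finset

namespace FA.BeukersSchlickewei

/-- The coefficients of the Padé polynomials. -/
def padeCoeff (a c j : ℕ) : ℤ := (-1) ^ j * (a + j).choose j * (2 * a + c).choose (a - j)

/-- The first Padé polynomial. -/
def padeA (a c : ℕ) : ℤ[X] := ∑ j ∈ range (a + 1), C (padeCoeff a c j) * X ^ j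

/-- The second Padé polynomial. -/
def padeB (a c : ℕ) : ℤ[X] := C ((-1) ^ (c + 1)) * (padeA a c).comp (1 - X)

/-- The third Padé polynomial. -/
def padeC (a c : ℕ) : ℤ[X] :=
  -(X ^ (a + c) * padeA a c + (1 - X) ^ (a + c) * padeB a c)

theorem pade_identity (a c : ℕ) :
    X ^ (a + c) * padeA a c + (1 - X) ^ (a + c) * padeB a c + padeC a c = 0 := by
  rw [padeC]; ring

theorem padeA_coeff (a c i : ℕ) : (padeA a c).coeff i = if i ≤ a then padeCoeff a c i else 0 := by
  simp [padeA, finsetSum_coeff, coeff_C_mul_X_pow]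

theorem pade_choose (a c j : ℕ) (hj : j ≤ a) :
    (a + j).choose j * (2 * a + c).choose (a - j) * (a + c + j).descFactorial c *
      (a.factorial * a.factorial) = a.choose j * (2 * a + c).factorial := by
  have h1 := Nat.choose_mul_factorial_mul_factorial (show a - j ≤ 2 * a + c by omega)
  rw [show 2 * a + c - (a - j) = a + c + j by omega] at h1
  have h2 := Nat.factorial_mul_descFactorial (show c ≤ a + c + j by omega)
  rw [show a + c + j - c = a + j by omega] at h2
  have h3 := Nat.choose_mul_factorial_mul_factorial (show j ≤ a + j by omega)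
  rw [show a + j - j = a by omega] at h3
  have h4 := Nat.choose_mul_factorial_mul_factorial hj
  rw [← h1, ← h2, ← h3]
  calc _ = (a + j).choose j * (2 * a + c).choose (a - j) * (a + c + j).descFactorial c *
        (a.factorial * (a.choose j * j.factorial * (a - j).factorial)) := by rw [h4]
    _ = _ := by ring

/-- The derivative of order `c` is a multiple of `X ^ a (1 - X) ^ a`. -/
theorem derivative_padeA (a c : ℕ) :
    C (a.factorial * a.factorial : ℤ) * derivative^[c] (X ^ (a + c) * padeA a c) =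
      C ((2 * a + c).factorial : ℤ) * (X ^ a * (1 - X) ^ a) := by
  rw [padeA, mul_sum, iterate_derivative_sum, mul_sum, sub_eq_neg_add, add_pow, mul_sum, mul_sum]
  refine sum_congr rfl fun j hj => ?_
  have hj' : j ≤ a := Nat.lt_succ_iff.1 (mem_range.1 hj)
  rw [mul_left_comm, ← pow_add, iterate_derivative_C_mul, iterate_derivative_X_pow_eq_natCast_mul,
    show a + c + j - c = a + j by omega, neg_pow, one_pow, mul_one, pow_add]
  have h : ((a + j).choose j * (2 * a + c).choose (a - j) * (a + c + j).descFactorial c *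
      (a.factorial * a.factorial) : ℤ[X]) = (a.choose j * (2 * a + c).factorial : ℤ[X]) := by
    exact_mod_cast congrArg (Nat.cast : ℕ → ℤ[X]) (pade_choose a c j hj')
  simp only [padeCoeff, map_mul, map_pow, map_neg, map_one, map_natCast]
  linear_combination ((-1 : ℤ[X]) ^ j * X ^ a * X ^ j) * h

theorem natDegree_padeA_le (a c : ℕ) : (padeA a c).natDegree ≤ a :=
  natDegree_sum_le_of_forall_le _ _ fun j hj =>
    (natDegree_C_mul_X_pow_le _ _).trans (Nat.lt_succ_iff.1 (mem_range.1 hj))

theorem natDegree_padeB_le (a c : ℕ) : (padeB a c).natDegree ≤ a := by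
  refine (natDegree_C_mul_le _ _).trans (natDegree_comp_le.trans ?_)
  calc (padeA a c).natDegree * (1 - X : ℤ[X]).natDegree ≤ a * 1 :=
        Nat.mul_le_mul (natDegree_padeA_le a c) ((natDegree_sub_le _ _).trans (by simp))
    _ = a := mul_one a

theorem padeB_coeff_self (a c : ℕ) : (padeB a c).coeff a ≠ 0 := by
  have hlin : (1 - X : ℤ[X]).natDegree ≤ 1 := (natDegree_sub_le _ _).trans (by simp)
  rw [padeB, coeff_C_mul, padeA, Polynomial.sum_comp, finsetSum_coeff, sum_eq_single a]
  · rw [mul_comp, C_comp, X_pow_comp, coeff_C_mul,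
      show ((1 - X : ℤ[X]) ^ a).coeff a = (1 - X : ℤ[X]).coeff 1 ^ a by
        simpa using coeff_pow_of_natDegree_le (p := (1 - X : ℤ[X])) (m := a) hlin]
    simp [padeCoeff, coeff_sub, coeff_one, Nat.choose_eq_zero_iff]
  · intro j hj hja
    rw [mul_comp, C_comp, X_pow_comp, coeff_C_mul, coeff_eq_zero_of_natDegree_lt, mul_zero]
    exact (natDegree_pow_le.trans (Nat.mul_le_mul_left j hlin)).trans_lt
      (by have := mem_range.1 hj; omega)
  · intro h; simp at h

theorem natDegree_padeC_lt (a c : ℕ) (hc : 0 < c) : (padeC a c).natDegree < c := by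
  have hK : (a.factorial * a.factorial : ℤ) ≠ 0 :=
    mul_ne_zero (mod_cast a.factorial_ne_zero) (mod_cast a.factorial_ne_zero)
  have hs : derivative^[c] (padeC a c) = 0 := by
    refine mul_left_cancel₀ (C_ne_zero.2 hK) ?_
    rw [mul_zero, padeC, padeB,
      show (1 - X : ℤ[X]) ^ (a + c) * (C ((-1) ^ (c + 1)) * (padeA a c).comp (1 - X)) =
        C ((-1) ^ (c + 1)) * (X ^ (a + c) * padeA a c).comp (1 - X) by
          rw [mul_comp, X_pow_comp]; ring,
      iterate_derivative_neg, iterate_map_add, iterate_derivative_C_mul,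
      iterate_derivative_comp_one_sub_X]
    have h1 := derivative_padeA a c
    have h2 := congrArg (fun P : ℤ[X] => P.comp (1 - X)) h1
    simp only [mul_comp, C_comp, X_pow_comp, pow_comp, sub_comp, one_comp, X_comp,
      sub_sub_cancel] at h2
    have h3 : (-1 : ℤ[X]) ^ (c + 1) * (-1) ^ c = -1 := by
      rw [← pow_add, Odd.neg_one_pow ⟨c, by omega⟩]
    simp only [map_pow, map_neg, map_one] at *
    linear_combination -h1 - (-1 : ℤ[X]) ^ (c + 1) * (-1) ^ c * h2 -
      (C ((2 * a + c).factorial : ℤ) * (X ^ a * (1 - X) ^ a)) * h3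
  by_contra h
  rw [not_lt] at h
  have := congrArg (fun P : ℤ[X] => P.coeff ((padeC a c).natDegree - c)) hs
  simp only [coeff_iterate_derivative, Nat.sub_add_cancel h, coeff_zero, nsmul_eq_mul,
    mul_eq_zero, Nat.cast_eq_zero, Nat.descFactorial_eq_zero_iff_lt] at this
  rcases this with h' | h'
  · omega
  · have h0 : padeC a c = 0 := leadingCoeff_eq_zero.1 h'
    rw [h0, natDegree_zero] at h
    omega

/-- There is no identity of degree below `m`. -/
theorem eq_zero_of_identity {m : ℕ} {A B D : ℤ[X]} (hA : A.natDegree < m) (hB : B.natDegree < m)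
    (hD : D.natDegree < m) (h : X ^ (2 * m) * A + (1 - X) ^ (2 * m) * B + D = 0) : B = 0 := by
  have hd := congrArg (derivative^[m]) h
  rw [iterate_map_add, iterate_map_add, iterate_derivative_eq_zero hD, add_zero,
    iterate_derivative_zero] at hd
  obtain ⟨A', hA'⟩ : (X : ℤ[X]) ^ m ∣ derivative^[m] (X ^ (2 * m) * A) := by
    have := pow_sub_dvd_iterate_derivative_of_pow_dvd (p := X ^ (2 * m) * A) (q := X)
      (n := 2 * m) m (dvd_mul_right _ _)
    rwa [show 2 * m - m = m by omega] at this
  obtain ⟨B', hB'⟩ : (1 - X : ℤ[X]) ^ m ∣ derivative^[m] ((1 - X) ^ (2 * m) * B) := by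
    have := pow_sub_dvd_iterate_derivative_of_pow_dvd (p := (1 - X) ^ (2 * m) * B) (q := (1 - X))
      (n := 2 * m) m (dvd_mul_right _ _)
    rwa [show 2 * m - m = m by omega] at this
  have hB0 : B' = 0 := by
    by_contra hne
    have hlin : (1 - X : ℤ[X]).natDegree = 1 := by
      rw [← natDegree_neg, neg_sub, ← C_1, natDegree_X_sub_C]
    have hne1 : (1 - X : ℤ[X]) ≠ 0 := ne_zero_of_natDegree_gt (hlin ▸ Nat.zero_lt_one)
    have hdiv : (X : ℤ[X]) ^ m ∣ B' := by
      refine ((show IsCoprime (X : ℤ[X]) (1 - X) from ⟨1, 1, by ring⟩).pow (m := m)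
        (n := m)).dvd_of_dvd_mul_left ⟨-A', ?_⟩
      linear_combination (norm := ring_nf) hd - hA' - hB'
    have h1 := natDegree_le_of_dvd hdiv hne
    have h2 := congrArg natDegree hB'
    rw [natDegree_mul (pow_ne_zero _ hne1) hne, natDegree_pow, hlin] at h2
    have h3 := natDegree_iterate_derivative ((1 - X : ℤ[X]) ^ (2 * m) * B) m
    have h4 := natDegree_mul_le (p := (1 - X : ℤ[X]) ^ (2 * m)) (q := B)
    rw [natDegree_pow, hlin] at h4
    rw [natDegree_X_pow] at h1
    omega
  by_contra hne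
  have hlin : (1 - X : ℤ[X]).natDegree = 1 := by
    rw [← natDegree_neg, neg_sub, ← C_1, natDegree_X_sub_C]
  have hne1 : (1 - X : ℤ[X]) ≠ 0 := ne_zero_of_natDegree_gt (hlin ▸ Nat.zero_lt_one)
  rw [hB0, mul_zero] at hB'
  set P := (1 - X : ℤ[X]) ^ (2 * m) * B with hP
  have hdeg : m ≤ P.natDegree := by
    rw [hP, natDegree_mul (pow_ne_zero _ hne1) hne, natDegree_pow, hlin]; omega
  have := congrArg (fun Q : ℤ[X] => Q.coeff (P.natDegree - m)) hB'
  simp only [coeff_iterate_derivative, Nat.sub_add_cancel hdeg, coeff_zero, nsmul_eq_mul,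
    mul_eq_zero, Nat.cast_eq_zero, Nat.descFactorial_eq_zero_iff_lt] at this
  rcases this with h' | h'
  · omega
  · exact mul_ne_zero (pow_ne_zero _ hne1) hne (leadingCoeff_eq_zero.1 h')

theorem abs_coeff_one_sub_X_pow (n i : ℕ) : |((1 - X : ℤ[X]) ^ n).coeff i| ≤ 2 ^ n := by
  rw [show (1 - X : ℤ[X]) ^ n = ((1 + X : ℤ[X]) ^ n).comp (C (-1) * X) by simp [sub_eq_add_neg],
    comp_C_mul_X_coeff, coeff_one_add_X_pow, abs_mul, abs_pow, abs_neg, abs_one, one_pow, mul_one,
    Nat.abs_cast]
  exact_mod_cast Nat.choose_le_two_pow n i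

theorem abs_pade_coeff (a c i : ℕ) :
    |(padeA a c).coeff i| ≤ 2 ^ (4 * a + c) ∧ |(padeB a c).coeff i| ≤ (a + 1) * 2 ^ (5 * a + c) ∧
      (i < a + c → |(padeC a c).coeff i| ≤ (a + 1) * 2 ^ (6 * a + 2 * c)) := by
  have hcoef : ∀ j, j ≤ a → |padeCoeff a c j| ≤ 2 ^ (4 * a + c) := by
    intro j hj
    simp only [padeCoeff, abs_mul, abs_pow, abs_neg, abs_one, one_pow, one_mul, Nat.abs_cast]
    norm_cast
    calc (a + j).choose j * (2 * a + c).choose (a - j) ≤ 2 ^ (a + j) * 2 ^ (2 * a + c) :=
          Nat.mul_le_mul (Nat.choose_le_two_pow _ _) (Nat.choose_le_two_pow _ _)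
      _ ≤ 2 ^ (4 * a + c) := by
          rw [← pow_add]; exact Nat.pow_le_pow_right (by norm_num) (by omega)
  have hsum : ∀ N i, |((1 - X : ℤ[X]) ^ N * (padeA a c).comp (1 - X)).coeff i| ≤
      (a + 1) * 2 ^ (5 * a + c + N) := by
    intro N i
    rw [padeA, Polynomial.sum_comp, mul_sum, finsetSum_coeff]
    refine (abs_sum_le_sum_abs _ _).trans ((sum_le_sum fun j hj => ?_).trans
      (by rw [sum_const, card_range, nsmul_eq_mul, Nat.cast_add, Nat.cast_one]))
    have hj' : j ≤ a := Nat.lt_succ_iff.1 (mem_range.1 hj)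
    rw [mul_comp, C_comp, X_pow_comp, mul_left_comm, ← pow_add, coeff_C_mul, abs_mul]
    calc |padeCoeff a c j| * |((1 - X : ℤ[X]) ^ (N + j)).coeff i| ≤ 2 ^ (4 * a + c) * 2 ^ (N + j) :=
          mul_le_mul (hcoef j hj') (abs_coeff_one_sub_X_pow _ _) (abs_nonneg _) (by positivity)
      _ ≤ 2 ^ (5 * a + c + N) := by
          rw [← pow_add]; exact pow_le_pow_right₀ (by norm_num) (by omega)
  refine ⟨?_, ?_, fun hi => ?_⟩
  · rw [padeA_coeff]
    split_ifs with h
    · exact hcoef i h
    · simp
  · rw [padeB, coeff_C_mul, abs_mul, abs_pow, abs_neg, abs_one, one_pow, one_mul]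
    simpa using hsum 0 i
  · rw [padeC, coeff_neg, abs_neg, coeff_add, coeff_X_pow_mul', if_neg (by omega), zero_add, padeB,
      mul_left_comm, coeff_C_mul, abs_mul, abs_pow, abs_neg, abs_one, one_pow, one_mul]
    exact (hsum (a + c) i).trans (by rw [show 5 * a + c + (a + c) = 6 * a + 2 * c by omega])

/-- **Padé identities** of Beukers and Schlickewei. -/
theorem exists_pade {m : ℕ} (hm : 1 ≤ m) : ∃ A B D A' B' D' : ℤ[X],
    (∀ P ∈ [A, B, D, A', B', D'], P.natDegree ≤ m ∧ ∀ i, |P.coeff i| ≤ 2 ^ (11 * m)) ∧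
    X ^ (2 * m) * A + (1 - X) ^ (2 * m) * B + D = 0 ∧
    X ^ (2 * m) * A' + (1 - X) ^ (2 * m) * B' + D' = 0 ∧
    ∃ k : ℤ, k ≠ 0 ∧ A * B' - A' * B = C k := by
  obtain ⟨m, rfl⟩ : ∃ n, m = n + 1 := ⟨m - 1, by omega⟩
  have id1 := pade_identity (m + 1) (m + 1)
  have id2 := pade_identity m (m + 2)
  rw [show m + 1 + (m + 1) = 2 * (m + 1) by omega] at id1
  rw [show m + (m + 2) = 2 * (m + 1) by omega] at id2
  refine ⟨_, _, _, _, _, _, ?_, id1, id2, ?_⟩
  · have hb : ∀ a c, a ≤ m + 1 → a + c = 2 * (m + 1) → ((a : ℤ) + 1) * 2 ^ (6 * a + 2 * c) ≤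
        2 ^ (11 * (m + 1)) := by
      intro a c ha hac
      have : ((a : ℤ) + 1) ≤ 2 ^ (m + 2) := by
        exact_mod_cast (Nat.succ_le_succ ha).trans Nat.lt_two_pow_self.le
      refine (mul_le_mul_of_nonneg_right this (by positivity)).trans ?_
      rw [← pow_add]
      exact pow_le_pow_right₀ (by norm_num) (by omega)
    have hall : ∀ a c, a ≤ m + 1 → 0 < c → c ≤ m + 2 → a + c = 2 * (m + 1) →
        ∀ P ∈ [padeA a c, padeB a c, padeC a c],
          P.natDegree ≤ m + 1 ∧ ∀ i, |P.coeff i| ≤ 2 ^ (11 * (m + 1)) := by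
      intro a c ha hc hc' hac P hP
      have hone : (1 : ℤ) ≤ a + 1 := by simp
      simp only [List.mem_cons, List.not_mem_nil, or_false] at hP
      rcases hP with rfl | rfl | rfl
      · refine ⟨(natDegree_padeA_le a c).trans ha,
          fun i => ((abs_pade_coeff a c i).1.trans ?_).trans
          (hb a c ha hac)⟩
        exact (pow_le_pow_right₀ (by norm_num) (by omega)).trans
          (le_mul_of_one_le_left (by positivity) hone)
      · refine ⟨(natDegree_padeB_le a c).trans ha,
          fun i => ((abs_pade_coeff a c i).2.1.trans ?_).trans (hb a c ha hac)⟩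
        exact mul_le_mul_of_nonneg_left (pow_le_pow_right₀ (by norm_num) (by omega)) (by positivity)
      · refine ⟨by have := natDegree_padeC_lt a c hc; omega, fun i => ?_⟩
        by_cases hi : i < a + c
        · exact ((abs_pade_coeff a c i).2.2 hi).trans (hb a c ha hac)
        · rw [coeff_eq_zero_of_natDegree_lt (by have := natDegree_padeC_lt a c hc; omega)]
          simp
    intro P hP
    simp only [List.mem_cons, List.not_mem_nil, or_false] at hP
    rcases hP with h | h | h | h | h | h
    iterate 3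
      · exact hall (m + 1) (m + 1) le_rfl (by omega) (by omega) (by omega) P (by simp [h])
    all_goals exact hall m (m + 2) (by omega) (by omega) (by omega) (by omega) P (by simp [h])
  set A := padeA (m + 1) (m + 1)
  set B := padeB (m + 1) (m + 1)
  set D := padeC (m + 1) (m + 1)
  set A' := padeA m (m + 2)
  set B' := padeB m (m + 2)
  set D' := padeC m (m + 2)
  have hB : B.natDegree ≤ m + 1 := natDegree_padeB_le _ _
  have hBc : B.coeff (m + 1) ≠ 0 := padeB_coeff_self _ _
  have hD : D.natDegree ≤ m := Nat.lt_succ_iff.1 (natDegree_padeC_lt _ _ (by omega))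
  have hB' : B'.natDegree ≤ m := natDegree_padeB_le _ _
  have hD' : D'.natDegree ≤ m + 1 := Nat.lt_succ_iff.1 (natDegree_padeC_lt _ _ (by omega))
  have hDc : D'.coeff (m + 1) ≠ 0 := by
    intro h
    have hlt : D'.natDegree < m + 1 := by
      rcases Nat.lt_or_eq_of_le hD' with hlt | heq
      · exact hlt
      · have : D' = 0 := leadingCoeff_eq_zero.1 (by rwa [leadingCoeff, heq])
        simp [this]
    have := eq_zero_of_identity (Nat.lt_succ_iff.2 (natDegree_padeA_le m (m + 2)))
      (Nat.lt_succ_iff.2 hB') hlt id2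
    exact padeB_coeff_self m (m + 2) (by rw [show padeB m (m + 2) = 0 from this, coeff_zero])
  have hcross : B * D' - B' * D = X ^ (2 * (m + 1)) * (A * B' - A' * B) := by
    linear_combination B * id2 - B' * id1
  have htop : (B * D' - B' * D).coeff (2 * (m + 1)) ≠ 0 := by
    rw [coeff_sub, two_mul, coeff_mul_add_eq_of_natDegree_le hB hD',
      coeff_eq_zero_of_natDegree_lt (p := B' * D) (natDegree_mul_le.trans_lt (by omega)), sub_zero]
    exact mul_ne_zero hBc hDc
  have hne : A * B' - A' * B ≠ 0 := fun h => htop (by rw [hcross, h, mul_zero, coeff_zero])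
  have hdeg : (B * D' - B' * D).natDegree ≤ 2 * (m + 1) :=
    (natDegree_sub_le _ _).trans (max_le (natDegree_mul_le.trans (by omega))
      (natDegree_mul_le.trans (by omega)))
  rw [hcross, natDegree_mul (pow_ne_zero _ X_ne_zero) hne, natDegree_X_pow] at hdeg
  have hconst := eq_C_of_natDegree_eq_zero (show (A * B' - A' * B).natDegree = 0 by omega)
  exact ⟨_, fun h => hne (by rw [hconst, h, map_zero]), hconst⟩

end FA.BeukersSchlickewei

end
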