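import Fermat.Agent.BeukersSchlickewei.Specialisation

/-!
# The number of solutions of the `S`-unit equation

The logarithms of units outside a finite set of places fill at most `2 s` dimensions, `s` the number
of the infinite places and of those in the set, so no finite generation is needed to count the
solutions of `a x + b y = 1` in them.
-/

set_option autoImplicit false

noncomputable section

open Height NumberField Finset Module

namespace FA.BeukersSchlickewei

variable {K : Type*} [Field K] [NumberField K]

/-- **The `S`-unit equation** has a number of solutions bounded by the number of places. -/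
theorem card_line_solutions_le {a b : K} (ha : a ≠ 0) (hb : b ≠ 0) (P : Finset (FinitePlace K))
    (S : Finset (Kˣ × Kˣ)) (hP : ∀ u ∈ S, ∀ v ∉ P, v (u.1 : K) = 1 ∧ v (u.2 : K) = 1)
    (hS : ∀ u ∈ S, a * u.1 + b * u.2 = 1) :
    S.card ≤ solutionBound (2 * (Fintype.card (InfinitePlace K) + P.card) + 1) := by
  classical
  set c : Kˣ × Kˣ := (Units.mk0 a ha, Units.mk0 b hb)
  set P' := P ∪ ((FinitePlace.hasFiniteMulSupport ha).toFinset ∪
    (FinitePlace.hasFiniteMulSupport hb).toFinset) with hP'
  have hc : ∀ v ∉ P', v a = 1 ∧ v b = 1 := fun v hv => by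
    simp only [hP', mem_union, Set.Finite.mem_toFinset, Function.mem_mulSupport, not_or,
      not_not] at hv
    exact hv.2
  have hsub : ∀ v ∉ P', v ∉ P := fun v hv h => hv (mem_union_left _ h)
  let e : (InfinitePlace K ⊕ P) × Fin 2 → (InfinitePlace K ⊕ P') × Fin 2 :=
    Prod.map (Sum.map id fun v => (⟨v.1, mem_union_left _ v.2⟩ : P')) id
  let gen : Option ((InfinitePlace K ⊕ P) × Fin 2) → LogSpace P' := fun o =>
    o.elim (logHom P' (Additive.ofMul c)) fun k => PiLp.single 1 (e k) (1 : ℝ)
  have hunit : ∀ u ∈ S, logHom P' (Additive.ofMul u) ∈ Submodule.span ℝ (Set.range gen) := by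
    intro u hu
    have key : logHom P' (Additive.ofMul u) =
        ∑ k, (logHom P' (Additive.ofMul u)) k • PiLp.single 1 k (1 : ℝ) := by
      refine PiLp.ext fun j => ?_
      simp [Pi.single_apply]
    rw [key]
    refine Submodule.sum_mem _ fun k _ => ?_
    by_cases hk : k ∈ Set.range e
    · obtain ⟨k, rfl⟩ := hk
      exact Submodule.smul_mem _ _ (Submodule.subset_span ⟨some k, rfl⟩)
    · obtain ⟨v | v, i⟩ := k
      · exact absurd ⟨(Sum.inl v, i), rfl⟩ hk
      · have hv : v.1 ∉ P := fun h => hk ⟨(Sum.inr ⟨v.1, h⟩, i), rfl⟩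
        have h0 : (logHom P' (Additive.ofMul u)) (Sum.inr v, i) = 0 := by
          obtain ⟨h1, h2⟩ := hP u hu v.1 hv
          fin_cases i <;> simp [logHom, logCoord, h1, h2]
        rw [h0, zero_smul]
        exact zero_mem _
  rw [← card_image_of_injective S (mul_right_injective c)]
  refine card_solutions_of_mem (P := P') (Submodule.span ℝ (Set.range gen))
    ((finrank_range_le_card _).trans (le_of_eq (by simp [mul_comm 2]))) _
    (fun w hw v hv => ?_) (fun w hw => ?_) fun w hw => ?_ <;> obtain ⟨u, hu, rfl⟩ := mem_image.1 hw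
  · simp [c, (hc v hv).1, (hc v hv).2, (hP u hu v (hsub v hv)).1, (hP u hu v (hsub v hv)).2]
  · rw [ofMul_mul, map_add]
    exact add_mem (Submodule.subset_span ⟨none, rfl⟩) (hunit u hu)
  · simpa [c] using hS u hu

/-- The condition at the places is that of `Set.unit`. -/
theorem mk_eq_one_iff (v : IsDedekindDomain.HeightOneSpectrum (𝓞 K)) (x : K) :
    FinitePlace.mk v x = 1 ↔ v.valuation K x = 1 := by
  rw [FinitePlace.mk_apply, FinitePlace.norm_embedding']
  exact NNReal.coe_eq_one.trans
    (WithZeroMulInt.toNNReal_eq_one_iff _ _ (HeightOneSpectrum.one_lt_absNorm_nnreal v).ne')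

end FA.BeukersSchlickewei

end
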