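import Fermat.Agent.BeukersSchlickewei.Count
import Mathlib.RingTheory.Jacobson.Ring
import Mathlib.RingTheory.FiniteType
import Mathlib.RingTheory.Adjoin.FG

/-!
# From number fields to fields of characteristic zero

Finitely many solutions in a field of characteristic zero and the generators lie in a finitely
generated `ℚ`-algebra, which has a maximal ideal keeping the solutions apart; its residue field is
a number field. As the bound does not depend on the field, it holds for every field.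
-/

set_option autoImplicit false

noncomputable section

open Finset

namespace FA.BeukersSchlickewei

/-- The bound for groups of rank `r`. -/
def solutionBound (r : ℕ) : ℕ := 555 * 5 ^ (19 * r)

theorem card_solutions_charZero_le {K : Type*} [Field K] [CharZero K] {r : ℕ}
    (g : Fin r → Kˣ × Kˣ) (S : Finset (Kˣ × Kˣ))
    (hspan : ∀ u ∈ S, ∃ k : ℕ, 0 < k ∧ ∃ n : Fin r → ℤ, u ^ k = ∏ i, g i ^ n i)
    (hS : ∀ u ∈ S, (u.1 : K) + u.2 = 1) : S.card ≤ solutionBound r := by
  classical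
  set T := S ∪ univ.image g
  set G : Finset K := T.biUnion fun u =>
    {(u.1 : K), (u.2 : K), ((u.1⁻¹ : Kˣ) : K), ((u.2⁻¹ : Kˣ) : K)} with hG
  set R := Algebra.adjoin ℚ (G : Set K)
  haveI : Algebra.FiniteType ℚ R :=
    (Subalgebra.fg_iff_finiteType _).1 (Subalgebra.fg_adjoin_finset G)
  haveI : IsJacobsonRing R := isJacobsonRing_of_finiteType (A := ℚ)
  set ι : Rˣ × Rˣ →* Kˣ × Kˣ :=
    (Units.map (R.val : R →* K)).prodMap (Units.map (R.val : R →* K))
  have hinj : Function.Injective ι :=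
    Function.Injective.prodMap (Units.map_injective Subtype.val_injective)
      (Units.map_injective Subtype.val_injective)
  have hlift : ∀ u ∈ T, ∃ u', ι u' = u := by
    intro u hu
    have hm : ∀ z ∈ ({(u.1 : K), (u.2 : K), ((u.1⁻¹ : Kˣ) : K), ((u.2⁻¹ : Kˣ) : K)} : Finset K),
        z ∈ R := fun z hz => Algebra.subset_adjoin (mem_coe.2 (mem_biUnion.2 ⟨u, hu, hz⟩))
    let a : Rˣ := ⟨⟨(u.1 : K), hm _ (by simp)⟩, ⟨((u.1⁻¹ : Kˣ) : K), hm _ (by simp)⟩,
      Subtype.ext (by simp), Subtype.ext (by simp)⟩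
    let b : Rˣ := ⟨⟨(u.2 : K), hm _ (by simp)⟩, ⟨((u.2⁻¹ : Kˣ) : K), hm _ (by simp)⟩,
      Subtype.ext (by simp), Subtype.ext (by simp)⟩
    exact ⟨(a, b), Prod.ext (Units.ext rfl) (Units.ext rfl)⟩
  choose! lift hlift using hlift
  set f : R := ∏ q ∈ (S ×ˢ S).filter fun q => q.1 ≠ q.2,
    (((lift q.1).1 : R) - ((lift q.2).1 : R))
  have hval : ∀ u ∈ S, (((lift u).1 : R) : K) = u.1 ∧ (((lift u).2 : R) : K) = u.2 := fun u hu => by
    have h := hlift u (mem_union_left _ hu)
    exact ⟨congrArg (fun w : Kˣ × Kˣ => (w.1 : K)) h, congrArg (fun w : Kˣ × Kˣ => (w.2 : K)) h⟩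
  have hf : f ≠ 0 := by
    refine prod_ne_zero_iff.2 fun q hq h => ?_
    obtain ⟨hq, hne⟩ := mem_filter.1 hq
    obtain ⟨h1, h2⟩ := mem_product.1 hq
    have e : (q.1.1 : K) = q.2.1 := by
      rw [← (hval _ h1).1, ← (hval _ h2).1, sub_eq_zero.1 h]
    refine hne (Prod.ext (Units.ext e) (Units.ext ?_))
    linear_combination hS _ h1 - hS _ h2 - e
  obtain ⟨M, hM, hfM⟩ : ∃ M : Ideal R, M.IsMaximal ∧ f ∉ M := by
    by_contra h
    push Not at h
    have hj : f ∈ (⊥ : Ideal R).jacobson := Ideal.mem_sInf.2 fun {J} hJ => h J hJ.2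
    rw [← Ideal.radical_eq_jacobson] at hj
    obtain ⟨n, hn⟩ := hj
    exact hf (eq_zero_of_pow_eq_zero hn)
  letI := Ideal.Quotient.field M
  haveI : Algebra.FiniteType ℚ (R ⧸ M) :=
    Algebra.FiniteType.of_surjective (Ideal.Quotient.mkₐ ℚ M) Ideal.Quotient.mk_surjective
  have hfin : Module.Finite ℚ (R ⧸ M) := finite_of_finite_type_of_isJacobsonRing ℚ (R ⧸ M)
  haveI : CharZero (R ⧸ M) := charZero_of_injective_algebraMap (algebraMap ℚ (R ⧸ M)).injective
  haveI : NumberField (R ⧸ M) := by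
    refine { to_finiteDimensional := ?_ }
    convert hfin
    exact Subsingleton.elim _ _
  set π : Rˣ × Rˣ →* (R ⧸ M)ˣ × (R ⧸ M)ˣ :=
    (Units.map (Ideal.Quotient.mk M : R →* R ⧸ M)).prodMap
      (Units.map (Ideal.Quotient.mk M : R →* R ⧸ M))
  have hinjS : Set.InjOn (fun u => π (lift u)) S := by
    intro u hu v hv h
    by_contra hne
    refine hfM ((Ideal.IsPrime.prod_mem_iff (p := M)).2
      ⟨(u, v), mem_filter.2 ⟨mem_product.2 ⟨hu, hv⟩, hne⟩, ?_⟩)
    exact Ideal.Quotient.eq.1 (congrArg (fun w : (R ⧸ M)ˣ × (R ⧸ M)ˣ => (w.1 : R ⧸ M)) h)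
  rw [← card_image_of_injOn hinjS]
  refine card_solutions_le (fun i => π (lift (g i))) _ (fun w hw => ?_) fun w hw => ?_ <;>
    obtain ⟨u, hu, rfl⟩ := mem_image.1 hw
  · obtain ⟨k, hk, n, hn⟩ := hspan u hu
    refine ⟨k, hk, n, ?_⟩
    have h : lift u ^ k = ∏ i, lift (g i) ^ n i := hinj (by
      rw [map_pow, map_prod, hlift u (mem_union_left _ hu), hn]
      exact prod_congr rfl fun i _ => by
        rw [map_zpow, hlift (g i) (mem_union_right _ (mem_image_of_mem g (mem_univ i)))])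
    rw [← map_pow, h, map_prod]
    exact prod_congr rfl fun i _ => map_zpow π _ _
  · have h : ((lift u).1 : R) + ((lift u).2 : R) = 1 := Subtype.ext (by
      simpa [(hval u hu).1, (hval u hu).2] using hS u hu)
    have := congrArg (Ideal.Quotient.mk M) h
    simpa [π] using this

end FA.BeukersSchlickewei

end
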