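import Fermat.Agent.BeukersSchlickewei.SUnits
import Mathlib.FieldTheory.PolynomialGaloisGroup
import Mathlib.FieldTheory.Galois.Basic
import Mathlib.FieldTheory.Normal.Basic
import Mathlib.Algebra.Polynomial.Homogenize
import Mathlib.RingTheory.Polynomial.GaussNorm
import Mathlib.Analysis.Complex.Polynomial.Basic
import Mathlib.Data.Nat.Factorization.Induction
import Mathlib.Data.Finite.Perm

/-!
# The number of solutions of the Thue–Mahler equation

In the splitting field Gauss's lemma makes the value of each linear factor at a solution, over its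
value at another one, a unit outside the given primes, whatever the coefficients of the form. The
dependence of three factors turns this into one unit equation, in a field of degree at most `n!`.
-/

set_option autoImplicit false

noncomputable section

open Height NumberField Finset

namespace FA.BeukersSchlickewei

/-- The dehomogenised form. -/
def dehom (F : MvPolynomial (Fin 2) ℤ) : Polynomial ℤ :=
  MvPolynomial.aeval ![Polynomial.X, 1] F

theorem natDegree_dehom_le {F : MvPolynomial (Fin 2) ℤ} {n : ℕ} (hF : F.IsHomogeneous n) :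
    (dehom F).natDegree ≤ n := by
  rw [dehom, MvPolynomial.aeval_eq_eval₂Hom, MvPolynomial.coe_eval₂Hom, MvPolynomial.eval₂_eq']
  refine Polynomial.natDegree_sum_le_of_forall_le _ _ fun m hm => ?_
  have h : m 0 + m 1 = n := by
    simpa [Finsupp.weight_apply, Finsupp.sum_fintype, Fin.sum_univ_two] using
      hF (MvPolynomial.mem_support_iff.1 hm)
  simp only [Fin.prod_univ_two, Matrix.cons_val_zero, Matrix.cons_val_one, one_pow, mul_one,
    ← Polynomial.C_eq_algebraMap]
  exact (Polynomial.natDegree_C_mul_X_pow_le _ _).trans (by omega)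

variable {K : Type*} [Field K]

theorem homogenize_prod_X_sub_C (R : Multiset K) :
    (R.map fun α => Polynomial.X - Polynomial.C α).prod.homogenize (Multiset.card R) =
      (R.map fun α => MvPolynomial.X 0 - MvPolynomial.C α * MvPolynomial.X 1).prod := by
  induction R using Multiset.induction_on with
  | empty => simp
  | cons a R ih =>
    rw [Multiset.map_cons, Multiset.prod_cons, Multiset.card_cons, Multiset.map_cons,
      Multiset.prod_cons, add_comm,
      Polynomial.homogenize_mul _ _ (Polynomial.natDegree_X_sub_C a).le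
        (le_of_eq (Polynomial.natDegree_multiset_prod_X_sub_C_eq_card R)), ih,
      sub_eq_add_neg Polynomial.X, ← Polynomial.C_neg]
    simp [sub_eq_add_neg]

/-- A form splits into linear factors with its dehomogenisation. -/
theorem eval_form {F : MvPolynomial (Fin 2) ℤ} {n : ℕ} (hF : F.IsHomogeneous n)
    (hs : ((dehom F).map (Int.castRingHom K)).Splits) (x y : K) :
    MvPolynomial.aeval ![x, y] F = ((dehom F).map (Int.castRingHom K)).leadingCoeff *
      y ^ (n - ((dehom F).map (Int.castRingHom K)).natDegree) *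
      (((dehom F).map (Int.castRingHom K)).roots.map fun α => x - α * y).prod := by
  set f := (dehom F).map (Int.castRingHom K) with hf
  set R := f.roots
  have hd : f.natDegree ≤ n := Polynomial.natDegree_map_le.trans (natDegree_dehom_le hF)
  have hR : Multiset.card R = f.natDegree := hs.natDegree_eq_card_roots.symm
  have hF' : (MvPolynomial.map (Int.castRingHom K) F) = f.homogenize n := by
    rw [hf, Polynomial.homogenize_map,
      Polynomial.homogenize_eq_of_isHomogeneous (p := dehom F) hF rfl]
  have hfac : f = Polynomial.C f.leadingCoeff *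
      (R.map fun α => Polynomial.X - Polynomial.C α).prod := hs.eq_prod_roots
  rw [show MvPolynomial.aeval ![x, y] F =
      MvPolynomial.eval ![x, y] (MvPolynomial.map (Int.castRingHom K) F) by
    rw [MvPolynomial.eval_map, MvPolynomial.aeval_def]; rfl, hF']
  conv_lhs => rw [hfac, ← mul_one (R.map _).prod, Polynomial.homogenize_C_mul,
    ← Nat.add_sub_cancel' (hR ▸ hd : Multiset.card R ≤ n), Polynomial.homogenize_mul _ _
      (le_of_eq (Polynomial.natDegree_multiset_prod_X_sub_C_eq_card R)) (by simp),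
    homogenize_prod_X_sub_C, Polynomial.homogenize_one]
  rw [map_mul, map_mul, map_pow, map_multiset_prod, Multiset.map_map, MvPolynomial.eval_C,
    MvPolynomial.eval_X, hR]
  simp only [Function.comp_def, map_sub, map_mul, MvPolynomial.eval_X, MvPolynomial.eval_C,
    Matrix.cons_val_zero, Matrix.cons_val_one]
  ring

variable [NumberField K]

theorem finitePlace_eq_one_of_primes (v : FinitePlace K) {N : ℕ} (hN : N ≠ 0)
    (h : ∀ p : ℕ, p.Prime → p ∣ N → v (p : K) = 1) : v (N : K) = 1 := by
  induction N using Nat.recOnMul with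
  | zero => simp at hN
  | one => simp
  | prime p hp => exact h p hp dvd_rfl
  | mul a b ha hb =>
    obtain ⟨ha0, hb0⟩ := mul_ne_zero_iff.1 hN
    rw [Nat.cast_mul, map_mul, ha ha0 fun p hp hd => h p hp (hd.mul_right b),
      hb hb0 fun p hp hd => h p hp (hd.mul_left a), mul_one]

theorem gaussNorm_prod_X_sub_C (v : FinitePlace K) (R : Multiset K) :
    ((R.map fun α => Polynomial.X - Polynomial.C α).prod).gaussNorm v.1 1 =
      (R.map fun α => max 1 (v α)).prod := by
  have hna : IsNonarchimedean v.1 := FinitePlace.add_le v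
  induction R using Multiset.induction_on with
  | empty => simpa using Polynomial.gaussNorm_C v.1 1 (1 : K)
  | cons a R ih =>
    rw [Multiset.map_cons, Multiset.prod_cons, Polynomial.gaussNorm_mul hna one_pos, ih,
      Multiset.map_cons, Multiset.prod_cons]
    congr 1
    obtain ⟨i, hi⟩ := (Polynomial.X - Polynomial.C a).exists_eq_gaussNorm v.1 1
    refine le_antisymm ?_ (max_le ?_ ?_)
    · rw [hi, one_pow, mul_one, Polynomial.coeff_sub, Polynomial.coeff_X, Polynomial.coeff_C]
      rcases i with - | - | i <;> simp [FinitePlace.coe_apply]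
    · have h := (Polynomial.X - Polynomial.C a).le_gaussNorm v.1 zero_le_one 1
      rwa [Polynomial.coeff_sub, Polynomial.coeff_X_one, Polynomial.coeff_C, if_neg one_ne_zero,
        sub_zero, AbsoluteValue.map_one, one_pow, mul_one] at h
    · have h := (Polynomial.X - Polynomial.C a).le_gaussNorm v.1 zero_le_one 0
      rwa [Polynomial.coeff_sub, Polynomial.coeff_X_zero, Polynomial.coeff_C_zero, zero_sub,
        AbsoluteValue.map_neg, one_pow, mul_one] at h

/-- **Gauss's lemma for forms**: where the value is a unit the linear factors are maximal. -/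
theorem local_value {F : MvPolynomial (Fin 2) ℤ} {n : ℕ} (hF : F.IsHomogeneous n)
    (hs : ((dehom F).map (Int.castRingHom K)).Splits) (v : FinitePlace K) (x y : ℤ)
    (hv : v (MvPolynomial.aeval ![(x : K), (y : K)] F) = 1) :
    (∀ α ∈ ((dehom F).map (Int.castRingHom K)).roots, v ((x : K) - α * y) = max 1 (v α)) ∧
      (((dehom F).map (Int.castRingHom K)).natDegree < n → v (y : K) = 1) := by
  rw [eval_form hF hs, map_mul, map_mul, map_pow, map_multiset_prod, Multiset.map_map] at hv
  set f := (dehom F).map (Int.castRingHom K) with hf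
  set R := f.roots
  set P := (R.map fun α => max 1 (v α)).prod
  have hP : v f.leadingCoeff * P ≤ 1 := by
    have hg : f.gaussNorm v.1 1 ≤ 1 := by
      obtain ⟨i, hi⟩ := f.exists_eq_gaussNorm v.1 1
      rw [hi, one_pow, mul_one, hf, Polynomial.coeff_map]
      exact finitePlace_intCast_le v _
    rw [hs.eq_prod_roots, Polynomial.gaussNorm_mul (FinitePlace.add_le v) one_pos,
      gaussNorm_prod_X_sub_C,
      show (Polynomial.C f.leadingCoeff).gaussNorm v.1 1 = v f.leadingCoeff from
        Polynomial.gaussNorm_C v.1 1 _] at hg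
    exact hg
  have hle : ∀ α, v ((x : K) - α * y) ≤ max 1 (v α) := fun α => by
    rw [sub_eq_add_neg]
    refine (FinitePlace.add_le v _ _).trans (max_le_max (finitePlace_intCast_le v x) ?_)
    rw [FinitePlace.coe_apply, AbsoluteValue.map_neg, ← FinitePlace.coe_apply, map_mul]
    exact mul_le_of_le_one_right (apply_nonneg _ _) (finitePlace_intCast_le v y)
  have hy := finitePlace_intCast_le v y
  have hyp : 0 ≤ v (y : K) ^ (n - f.natDegree) := pow_nonneg (apply_nonneg _ _) _
  have hprod : (R.map fun α => v ((x : K) - α * y)).prod ≤ P :=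
    Multiset.prod_map_le_prod_map₀ _ _ (fun α _ => apply_nonneg _ _) fun α _ => hle α
  constructor
  · intro α hα
    refine le_antisymm (hle α) (not_lt.1 fun hlt => ?_)
    obtain ⟨R', hR'⟩ := Multiset.exists_cons_of_mem hα
    simp only [P, hR', Multiset.map_cons, Multiset.prod_cons, Function.comp_apply,
      Function.comp_def] at hP hv
    have h1 : (R'.map fun β => v ((x : K) - β * y)).prod ≤ (R'.map fun β => max 1 (v β)).prod :=
      Multiset.prod_map_le_prod_map₀ _ _ (fun β _ => apply_nonneg _ _) fun β _ => hle β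
    have hQ : 0 < (R'.map fun β => max 1 (v β)).prod :=
      Multiset.prod_pos fun x hx => by
        obtain ⟨β, -, rfl⟩ := Multiset.mem_map.1 hx; positivity
    have ha : 0 < v f.leadingCoeff := lt_of_le_of_ne (apply_nonneg _ _) fun h0 => by
      rw [← h0, zero_mul, zero_mul] at hv; exact zero_ne_one hv
    have hlt' : v f.leadingCoeff * v (y : K) ^ (n - f.natDegree) *
        (v ((x : K) - α * y) * (R'.map fun β => v ((x : K) - β * y)).prod) < 1 := by
      refine lt_of_lt_of_le ?_ hP
      calc _ ≤ v f.leadingCoeff *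
            (v ((x : K) - α * y) * (R'.map fun β => v ((x : K) - β * y)).prod) := by
            exact mul_le_mul_of_nonneg_right
              (mul_le_of_le_one_right (apply_nonneg _ _) (pow_le_one₀ (apply_nonneg _ _) hy))
              (mul_nonneg (apply_nonneg _ _)
                (Multiset.prod_map_nonneg fun β _ => apply_nonneg _ _))
        _ ≤ v f.leadingCoeff * (v ((x : K) - α * y) * (R'.map fun β => max 1 (v β)).prod) :=
            mul_le_mul_of_nonneg_left (mul_le_mul_of_nonneg_left h1 (apply_nonneg _ _))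
              (apply_nonneg _ _)
        _ < _ := mul_lt_mul_of_pos_left (mul_lt_mul_of_pos_right hlt hQ) ha
    exact absurd hv hlt'.ne
  · intro hlt
    refine le_antisymm hy (not_lt.1 fun h => ?_)
    have h2 : v (y : K) ^ (n - f.natDegree) < 1 := pow_lt_one₀ (apply_nonneg _ _) h (by omega)
    have hM : v f.leadingCoeff * (R.map fun α => v ((x : K) - α * y)).prod ≤ 1 :=
      (mul_le_mul_of_nonneg_left hprod (apply_nonneg _ _)).trans hP
    simp only [Function.comp_def] at hv
    rw [mul_right_comm] at hv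
    have := mul_le_of_le_one_left hyp hM
    linarith

theorem card_places_le {p : ℕ} (hp : p.Prime) (P : Finset (FinitePlace K))
    (hP : ∀ v ∈ P, v (p : K) < 1) : P.card ≤ Module.finrank ℚ K := by
  classical
  have hpK : (p : K) ≠ 0 := mod_cast hp.ne_zero
  have hone : ∀ v : FinitePlace K, v (p : K) < 1 → v (p : K) ≤ (p : ℝ)⁻¹ := by
    intro v hv
    have hmem : (p : 𝓞 K) ∈ v.maximalIdeal.asIdeal := by
      rw [← FinitePlace.norm_lt_one_iff_mem K, map_natCast (algebraMap (𝓞 K) K),
        FinitePlace.norm_embedding_eq]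
      exact hv
    have h := HeightOneSpectrum.embedding_mul_absNorm (K := K) v.maximalIdeal
      (x := (p : 𝓞 K)) (mod_cast hp.ne_zero)
    rw [map_natCast (algebraMap (𝓞 K) K), FinitePlace.norm_embedding_eq] at h
    rw [IsDedekindDomain.HeightOneSpectrum.maxPowDividing, map_pow, Nat.cast_pow] at h
    set k := (Associates.mk v.maximalIdeal.asIdeal).count
      (Associates.mk (Ideal.span {(p : 𝓞 K)})).factors
    have hk : k ≠ 0 := fun h0 => by
      rw [h0, pow_zero, mul_one] at h
      exact hv.ne h
    have hdvd : v.maximalIdeal.asIdeal.absNorm ∣ p ^ Module.finrank ℚ K := by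
      have := map_dvd Ideal.absNorm (Ideal.dvd_span_singleton.2 hmem)
      rwa [Ideal.absNorm_span_natCast, RingOfIntegers.rank] at this
    obtain ⟨j, -, hj⟩ := (Nat.dvd_prime_pow hp).1 hdvd
    have hj0 : j ≠ 0 := fun h0 => v.maximalIdeal.isPrime.ne_top
      (Ideal.absNorm_eq_one_iff.1 (by rw [hj, h0, pow_zero]))
    rw [hj, Nat.cast_pow, ← pow_mul] at h
    rw [eq_inv_of_mul_eq_one_left h]
    exact inv_anti₀ (by exact_mod_cast hp.pos)
      (le_self_pow₀ (by exact_mod_cast hp.one_le) (mul_ne_zero hj0 hk))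
  have hs : (Function.mulSupport fun v : FinitePlace K => v (p : K)).Finite :=
    FinitePlace.hasFiniteMulSupport hpK
  have hprod := prod_finitePlace_natCast (K := K) hp.ne_zero
  rw [finprod_eq_prod _ hs] at hprod
  have hsub : P ⊆ hs.toFinset := fun v hv => hs.mem_toFinset.2 (hP v hv).ne
  have h1 : ((p : ℝ) ^ Module.finrank ℚ K)⁻¹ ≤ ((p : ℝ) ^ P.card)⁻¹ := by
    rw [← hprod, ← inv_pow, ← prod_const, ← prod_sdiff hsub]
    exact (mul_le_of_le_one_left (prod_nonneg fun v _ => apply_nonneg _ _)
      (prod_le_one (fun v _ => apply_nonneg _ _) fun v _ => finitePlace_natCast_le v p)).trans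
      (prod_le_prod (fun v _ => apply_nonneg _ _) fun v hv => hone v (hP v hv))
  rw [inv_le_inv₀ (pow_pos (by exact_mod_cast hp.pos) _)
    (pow_pos (by exact_mod_cast hp.pos) _)] at h1
  exact (pow_le_pow_iff_right₀ (by exact_mod_cast hp.one_lt)).1 h1

theorem finrank_splittingField_le (g : Polynomial ℚ) :
    Module.finrank ℚ g.SplittingField ≤ g.natDegree.factorial := by
  classical
  haveI : Polynomial.IsSplittingField ℚ g.SplittingField g :=
    Polynomial.IsSplittingField.splittingField g
  haveI : Normal ℚ g.SplittingField := Normal.of_isSplittingField g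
  haveI : IsGalois ℚ g.SplittingField := ⟨⟩
  haveI : Fact ((g.map (algebraMap ℚ g.SplittingField)).Splits) :=
    ⟨Polynomial.SplittingField.splits g⟩
  rw [← IsGalois.card_aut_eq_finrank]
  refine (Nat.card_le_card_of_injective _
    (Polynomial.Gal.galActionHom_injective g g.SplittingField)).trans ?_
  rw [Nat.card_perm]
  refine Nat.factorial_le ?_
  rw [Nat.card_coe_set_eq, Polynomial.rootSet_def, Set.ncard_coe_finset]
  refine (Multiset.toFinset_card_le _).trans ((Polynomial.card_roots' _).trans ?_)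
  exact Polynomial.natDegree_map_le

/-- The bound for forms of degree `n` and `t` primes. -/
def thueMahlerBound (n t : ℕ) : ℕ := 2 * solutionBound (2 * (n.factorial * (t + 1)) + 1)

theorem eq_or_eq_neg_of_cross {z w : Fin 2 → ℤ} (hz : IsCoprime (z 0) (z 1))
    (hw : IsCoprime (w 0) (w 1)) (h : z 0 * w 1 = w 0 * z 1) : w = z ∨ w = -z := by
  obtain ⟨a, b, hab⟩ := hz
  set c := a * w 0 + b * w 1
  have h0 : w 0 = c * z 0 := by linear_combination -(w 0) * hab - b * h
  have h1 : w 1 = c * z 1 := by linear_combination -(w 1) * hab + a * h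
  have hc : IsUnit c := hw.isUnit_of_dvd' ⟨z 0, h0⟩ ⟨z 1, h1⟩
  rcases Int.isUnit_iff.1 hc with hc | hc
  · exact Or.inl (funext fun i => by fin_cases i <;> simp [h0, h1, hc])
  · exact Or.inr (funext fun i => by fin_cases i <;> simp [h0, h1, hc])

theorem card_thue_mahler_core {L : Type*} [Field L] [NumberField L] {n : ℕ}
    {F : MvPolynomial (Fin 2) ℤ} (hF : F.IsHomogeneous n)
    (hs : ((dehom F).map (Int.castRingHom L)).Splits) (hd : Module.finrank ℚ L ≤ n.factorial)
    (h3 : ∃ P : Fin 3 → Fin 2 → ℂ, (∀ i, MvPolynomial.aeval (P i) F = 0) ∧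
      ∀ i j, i ≠ j → P i 0 * P j 1 ≠ P j 0 * P i 1)
    (T : Finset ℕ) (Z : Finset (Fin 2 → ℤ))
    (hZ : ∀ z ∈ Z, IsCoprime (z 0) (z 1) ∧ MvPolynomial.aeval z F ≠ 0 ∧
      ∀ p : ℕ, p.Prime → (p : ℤ) ∣ MvPolynomial.aeval z F → p ∈ T) :
    Z.card ≤ thueMahlerBound n T.card := by
  classical
  rcases Z.eq_empty_or_nonempty with rfl | ⟨z₀, hz₀⟩
  · simp
  obtain ⟨P, hPz, hPd⟩ := h3
  set f := (dehom F).map (Int.castRingHom L) with hf
  obtain ⟨σ⟩ : Nonempty (L →+* ℂ) := inferInstance
  have heval : ∀ (z : Fin 2 → ℤ), MvPolynomial.aeval ![(z 0 : L), (z 1 : L)] F =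
      ((MvPolynomial.aeval z F : ℤ) : L) := fun z => by
    rw [show ((MvPolynomial.aeval z F : ℤ) : L) =
      (Int.castRingHom L).toIntAlgHom (MvPolynomial.aeval z F) from rfl,
      ← AlgHom.comp_apply, MvPolynomial.comp_aeval]
    congr 2
    funext i; fin_cases i <;> simp
  have hlin : ∀ i, ∃ l : Fin 2 → L, σ (l 0) * P i 0 + σ (l 1) * P i 1 = 0 ∧ l ≠ 0 ∧
      (∀ z : Fin 2 → ℤ, MvPolynomial.aeval z F ≠ 0 → l 0 * z 0 + l 1 * z 1 ≠ 0) ∧
      ∀ v : FinitePlace L, ∀ z w : Fin 2 → ℤ,
        v ((MvPolynomial.aeval z F : ℤ) : L) = 1 → v ((MvPolynomial.aeval w F : ℤ) : L) = 1 →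
          v (l 0 * z 0 + l 1 * z 1) = v (l 0 * w 0 + l 1 * w 1) := by
    intro i
    have hsC : ((dehom F).map (Int.castRingHom ℂ)).Splits := IsAlgClosed.splits _
    have hfC : f.map σ = (dehom F).map (Int.castRingHom ℂ) := by
      rw [hf, Polynomial.map_map]
      exact congrArg (fun φ : ℤ →+* ℂ => (dehom F).map φ) (RingHom.ext_int _ _)
    have hP0 : MvPolynomial.aeval (![P i 0, P i 1]) F = 0 := by
      rw [show (![P i 0, P i 1] : Fin 2 → ℂ) = P i by funext j; fin_cases j <;> rfl]
      exact hPz i
    rw [eval_form hF hsC, ← hfC, hs.roots_map σ, Polynomial.natDegree_map,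
      Polynomial.leadingCoeff_map, Multiset.map_map, mul_eq_zero, mul_eq_zero] at hP0
    have hne : ∀ z : Fin 2 → ℤ, MvPolynomial.aeval z F ≠ 0 →
        f.leadingCoeff * (z 1 : L) ^ (n - f.natDegree) *
          (f.roots.map fun α => (z 0 : L) - α * z 1).prod ≠ 0 := fun z hz => by
      rw [← eval_form hF hs, heval]
      exact Int.cast_ne_zero.2 hz
    rcases hP0 with (h | h) | h
    · exact absurd ((map_eq_zero σ).1 h) fun h0 =>
        hne z₀ (hZ z₀ hz₀).2.1 (by rw [h0, zero_mul, zero_mul])
    · obtain ⟨hy, hd⟩ := pow_eq_zero_iff'.1 h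
      refine ⟨![0, 1], by simp [hy], fun h => by simpa using congrFun h 1, fun z hz h => ?_,
        fun v z w hz hw => ?_⟩
      · simp only [Matrix.cons_val_zero, Matrix.cons_val_one, zero_mul, one_mul, zero_add] at h
        exact hne z hz (by rw [h, zero_pow hd, mul_zero, zero_mul])
      · rw [← heval] at hz hw
        simp [(local_value hF hs v _ _ hz).2 (by rw [← hf]; omega),
          (local_value hF hs v _ _ hw).2 (by rw [← hf]; omega)]
    · obtain ⟨α, hα, h⟩ := Multiset.mem_map.1 (Multiset.prod_eq_zero_iff.1 h)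
      refine ⟨![1, -α], by simpa [sub_eq_add_neg, neg_mul] using h,
        fun h => by simpa using congrFun h 0,
        fun z hz h => ?_, fun v z w hz hw => ?_⟩
      · refine hne z hz (mul_eq_zero_of_right _ (Multiset.prod_eq_zero (Multiset.mem_map.2
          ⟨α, hα, ?_⟩)))
        simpa [sub_eq_add_neg, neg_mul] using h
      · rw [← heval] at hz hw
        have e : ∀ x y : L, ![1, -α] 0 * x + ![1, -α] 1 * y = x - α * y := fun x y => by
          simp [sub_eq_add_neg, neg_mul]
        rw [e, e, (local_value hF hs v _ _ hz).1 α hα, (local_value hF hs v _ _ hw).1 α hα]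
  choose l hperp hl0 hlne hlval using hlin
  set D : Fin 3 → Fin 3 → L := fun i j => l i 0 * l j 1 - l j 0 * l i 1 with hD
  have hDne : ∀ i j, i ≠ j → D i j ≠ 0 := fun i j hij h => by
    rw [hD, sub_eq_zero] at h
    have e := congrArg σ h
    rw [map_mul, map_mul] at e
    rcases eq_or_ne (σ (l i 0)) 0 with h0 | h0
    · have hi1 : σ (l i 1) ≠ 0 := fun h1 => hl0 i (funext fun k => by
        fin_cases k
        exacts [(map_eq_zero σ).1 h0, (map_eq_zero σ).1 h1])
      rw [h0, zero_mul] at e
      have hj0 : σ (l j 0) = 0 := (mul_eq_zero.1 e.symm).resolve_right hi1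
      have hj1 : σ (l j 1) ≠ 0 := fun h1 => hl0 j (funext fun k => by
        fin_cases k
        exacts [(map_eq_zero σ).1 hj0, (map_eq_zero σ).1 h1])
      have h1 : P i 1 = 0 := by simpa [h0, hi1] using hperp i
      have h2 : P j 1 = 0 := by simpa [hj0, hj1] using hperp j
      exact hPd i j hij (by rw [h1, h2, mul_zero, mul_zero])
    · refine hPd i j hij (mul_left_cancel₀ h0 ?_)
      have hj : σ (l j 0) ≠ 0 ∨ σ (l j 1) ≠ 0 := not_and_or.1 fun hh => hl0 j (funext fun k => by
        fin_cases k
        exacts [(map_eq_zero σ).1 hh.1, (map_eq_zero σ).1 hh.2])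
      rcases hj with hj | hj
      · refine mul_left_cancel₀ hj ?_
        linear_combination σ (l j 0) * P j 1 * hperp i - σ (l i 0) * P i 1 * hperp j +
          P i 1 * P j 1 * e
      · refine mul_left_cancel₀ hj ?_
        linear_combination (σ (l j 1) * P j 1) * hperp i - (σ (l i 1) * P i 1) * hperp j -
          (P i 1 * P j 0) * e
  set T' := T.filter Nat.Prime
  have hfinT : ∀ p : T', {v : FinitePlace L | v ((p : ℕ) : L) < 1}.Finite := fun p =>
    (FinitePlace.hasFiniteMulSupport
      (Nat.cast_ne_zero.2 (mem_filter.1 p.2).2.ne_zero : ((p : ℕ) : L) ≠ 0)).subset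
      fun v hv => ne_of_lt hv
  set W := univ.biUnion fun p : T' => (hfinT p).toFinset with hW
  have hval : ∀ z ∈ Z, ∀ v ∉ W, v ((MvPolynomial.aeval z F : ℤ) : L) = 1 := by
    intro z hz v hv
    obtain ⟨-, hne, hdvd⟩ := hZ z hz
    have h := finitePlace_eq_one_of_primes v (Int.natAbs_ne_zero.2 hne) fun p hp hp' => by
      refine le_antisymm (finitePlace_natCast_le v p) (not_lt.1 fun hlt => hv ?_)
      have hpT : p ∈ T' := mem_filter.2 ⟨hdvd p hp (Int.natCast_dvd.2 hp'), hp⟩
      exact mem_biUnion.2 ⟨⟨p, hpT⟩, mem_univ _, (hfinT ⟨p, hpT⟩).mem_toFinset.2 hlt⟩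
    rcases Int.natAbs_eq (MvPolynomial.aeval z F) with e | e <;> rw [e]
    · rw [Int.cast_natCast]; exact h
    · rw [Int.cast_neg, Int.cast_natCast, FinitePlace.coe_apply, AbsoluteValue.map_neg,
        ← FinitePlace.coe_apply]
      exact h
  set V : Fin 3 → (Fin 2 → ℤ) → L := fun i z => l i 0 * z 0 + l i 1 * z 1
  have hV : ∀ i, ∀ z ∈ Z, V i z ≠ 0 := fun i z hz => hlne i z (hZ z hz).2.1
  set u : (Fin 2 → ℤ) → Lˣ × Lˣ := fun z =>
    if h : z ∈ Z then
      (Units.mk0 (V 0 z / V 0 z₀ / (V 2 z / V 2 z₀)) (by simp [hV _ z h, hV _ z₀ hz₀]),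
        Units.mk0 (V 1 z / V 1 z₀ / (V 2 z / V 2 z₀)) (by simp [hV _ z h, hV _ z₀ hz₀]))
    else 1 with hu
  have key := card_line_solutions_le (a := -(D 1 2 * V 0 z₀) / (D 0 1 * V 2 z₀))
    (b := -(D 2 0 * V 1 z₀) / (D 0 1 * V 2 z₀))
    (by simp [hDne 1 2 (by decide), hDne 0 1 (by decide), hV _ z₀ hz₀])
    (by simp [hDne 2 0 (by decide), hDne 0 1 (by decide), hV _ z₀ hz₀]) W (Z.image u)
    (fun w hw v hv => ?_) (fun w hw => ?_)
  rotate_left
  · obtain ⟨z, hz, rfl⟩ := mem_image.1 hw
    have e : ∀ i, v (V i z) = v (V i z₀) := fun i =>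
      hlval i v z z₀ (hval z hz v hv) (hval z₀ hz₀ v hv)
    have e' : ∀ i, v (V i z₀) ≠ 0 := fun i => (map_ne_zero _).2 (hV i z₀ hz₀)
    simp [hu, hz, map_div₀, e, e']
  · obtain ⟨z, hz, rfl⟩ := mem_image.1 hw
    simp only [hu, dif_pos hz, Units.val_mk0]
    have h0 := hV 0 z₀ hz₀
    have h1 := hV 1 z₀ hz₀
    have h2 := hV 2 z₀ hz₀
    have h2' := hV 2 z hz
    have h01 := hDne 0 1 (by decide)
    field_simp
    simp only [V, hD]
    ring
  have hfib : ∀ w ∈ Z.image u, (Z.filter fun z => u z = w).card ≤ 2 := by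
    intro w hw
    obtain ⟨z, hz, rfl⟩ := mem_image.1 hw
    refine (card_le_card (t := {z, -z}) fun z' hz' => ?_).trans card_le_two
    obtain ⟨hz', he⟩ := mem_filter.1 hz'
    have h := congrArg (fun w : Lˣ × Lˣ => (w.1 : L)) he
    simp only [hu, dif_pos hz, dif_pos hz', Units.val_mk0] at h
    have h0 := hV 0 z₀ hz₀
    have h2 := hV 2 z₀ hz₀
    have ha := hV 2 z hz
    have hb := hV 2 z' hz'
    field_simp at h
    have hc : (z' 0 : L) * z 1 = z 0 * z' 1 := by
      refine mul_left_cancel₀ (hDne 0 2 (by decide)) ?_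
      simp only [V, hD] at h ⊢
      linear_combination h
    rcases eq_or_eq_neg_of_cross (hZ z hz).1 (hZ z' hz').1
      (by exact_mod_cast hc.symm) with h | h <;> simp [h]
  have hcard := card_le_mul_card_image Z 2 hfib
  refine hcard.trans (Nat.mul_le_mul_left 2 (key.trans ?_))
  have hinf : Fintype.card (InfinitePlace L) ≤ n.factorial := by
    refine le_trans ?_ hd
    rw [← InfinitePlace.sum_mult_eq, ← card_univ, card_eq_sum_ones]
    exact sum_le_sum fun v _ => InfinitePlace.mult_pos
  have hWc : W.card ≤ T.card * n.factorial := by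
    refine (card_biUnion_le_card_mul _ _ (n.factorial) fun p _ => ?_).trans ?_
    · exact (card_places_le (mem_filter.1 p.2).2 _ fun v hv => (hfinT p).mem_toFinset.1 hv).trans hd
    · rw [card_univ, Fintype.card_coe]
      exact Nat.mul_le_mul_right _ (card_filter_le _ _)
  unfold solutionBound
  refine Nat.mul_le_mul_left _ (Nat.pow_le_pow_right (by norm_num) ?_)
  rw [Nat.mul_add n.factorial, mul_one, mul_comm n.factorial]
  omega

/-- **Evertse**: coprime solutions are boundedly many, uniformly in the form. -/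
theorem card_thue_mahler_le {n : ℕ} {F : MvPolynomial (Fin 2) ℤ} (hF : F.IsHomogeneous n)
    (h3 : ∃ P : Fin 3 → Fin 2 → ℂ, (∀ i, MvPolynomial.aeval (P i) F = 0) ∧
      ∀ i j, i ≠ j → P i 0 * P j 1 ≠ P j 0 * P i 1)
    (T : Finset ℕ) (Z : Finset (Fin 2 → ℤ))
    (hZ : ∀ z ∈ Z, IsCoprime (z 0) (z 1) ∧ MvPolynomial.aeval z F ≠ 0 ∧
      ∀ p : ℕ, p.Prime → (p : ℤ) ∣ MvPolynomial.aeval z F → p ∈ T) :
    Z.card ≤ thueMahlerBound n T.card := by
  set g := (dehom F).map (Int.castRingHom ℚ)
  haveI : NumberField g.SplittingField := ⟨⟩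
  refine card_thue_mahler_core (L := g.SplittingField) hF ?_ ((finrank_splittingField_le g).trans
    (Nat.factorial_le (Polynomial.natDegree_map_le.trans (natDegree_dehom_le hF)))) h3 T Z hZ
  have h : g.map (algebraMap ℚ g.SplittingField) =
      (dehom F).map (Int.castRingHom g.SplittingField) := by
    rw [Polynomial.map_map]
    exact congrArg (fun φ : ℤ →+* g.SplittingField => (dehom F).map φ) (RingHom.ext_int _ _)
  exact h ▸ Polynomial.SplittingField.splits g

end FA.BeukersSchlickewei

end
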